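import Mathlib
import Fermat.Agent.LG.Pow3

/-!
The expansions at the cusps `1 / (q ^ (r + 1) M)` and the norm from the level `q ^ (r + 2) M` to the
level `q ^ (r + 1) M`.
-/

set_option autoImplicit false
set_option linter.unusedSectionVars false

open Matrix.SpecialLinearGroup CongruenceSubgroup ModularGroup
open scoped MatrixGroups ModularForm Manifold
open UpperHalfPlane hiding I J
open Complex (I)
open Fermat.Agent.ModFun Fermat.Agent.ESCore Fermat.Agent.ESCore.Gal IntermediateField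
open Fermat.Agent.LG

noncomputable section

universe u

namespace Fermat.Agent.SF

section Deg

variable {K : Type u} [Field K] {q M N r : ℕ} [NeZero q] [NeZero M] [NeZero N]

theorem psi_sqR (hq : q.Prime) (hqM : ¬ q ∣ M) (r : ℕ) :
    ModularCurve.dedekindPsi (q ^ 2 * (q ^ r * M)) =
      ModularCurve.dedekindPsi (q * (q ^ r * M)) * q := by
  have hco : q.Coprime M := (Nat.Prime.coprime_iff_not_dvd hq).mpr hqM
  rw [show q ^ 2 * (q ^ r * M) = q ^ (r + 1 + 1) * M by ring,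
    show q * (q ^ r * M) = q ^ (r + 1) * M by ring,
    Fermat.Agent.Gamma0Comb.dedekindPsi_mul (hco.pow_left _),
    Fermat.Agent.Gamma0Comb.dedekindPsi_mul (hco.pow_left _),
    Fermat.Agent.Gamma0Comb.dedekindPsi_prime_pow hq (r + 1),
    Fermat.Agent.Gamma0Comb.dedekindPsi_prime_pow hq r]
  ring

/-- the degree of `X₀(q ^ (r + 2) M)` over `X₀(q ^ (r + 1) M)` -/
theorem finrank_sqR (ι : K →+* ℂ) (hq : q.Prime) (hqM : ¬ q ∣ M)
    (hN : N = q ^ 2 * (q ^ r * M)) :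
    letI := algI (F0_le_sq (K := K) (q := q) (M := q ^ r * M) hN)
    FiniteDimensional (F0 K (q * (q ^ r * M))) (F0 K N) ∧
      Module.finrank (F0 K (q * (q ^ r * M))) (F0 K N) = q := by
  obtain ⟨h1, h2⟩ := finrank_LJ ι (q * (q ^ r * M))
  obtain ⟨h3, h4⟩ := finrank_LJ ι N
  have t := tower_I (LJ_le_F0 (K := K) (q * (q ^ r * M)))
    (F0_le_sq (K := K) (q := q) (M := q ^ r * M) hN) (LJ_le_F0 (K := K) N)
  have h5 : ModularCurve.dedekindPsi N = ModularCurve.dedekindPsi (q * (q ^ r * M)) * q := by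
    rw [hN, psi_sqR hq hqM]
  rw [h5] at h4
  exact @finrank_quot (LJ K) (F0 K (q * (q ^ r * M))) (F0 K N) _ _ _
    (algI (LJ_le_F0 (K := K) (q * (q ^ r * M))))
    (algI (F0_le_sq (K := K) (q := q) (M := q ^ r * M) hN))
    (algI (LJ_le_F0 (K := K) N)) t h1 h3 _ _ h2 h4

end Deg

section Al

variable {q M N r : ℕ} [NeZero q] [NeZero M] [NeZero N]

theorem Jd_alR {c b s : ℤ} (hcb : M * c * b - q * s = 1) {e : ℕ} [NeZero e] (he : e ∣ M)
    (τ : ℍ) : Jd (q ^ 2 * (q ^ r * e)) (al q (q ^ r * M) c • τ) =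
      Jd (q ^ r * e) (shf (q ^ (r + 1)) b τ) := by
  obtain ⟨f, hf⟩ := he
  have hf' : (M : ℤ) = e * f := by exact_mod_cast hf
  let γ' : SL(2, ℤ) := ⟨!![(q : ℤ), -(e * b); c * f, -s], by
    rw [Matrix.det_fin_two_of]
    rw [hf'] at hcb
    linear_combination hcb⟩
  have h := Jd_smul (d := q ^ 2 * (q ^ r * e)) (γ := al q (q ^ r * M) c) (γ' := γ')
    (a := q * (q ^ r * e)) (d' := q) (b := e * b)
    (by
      change (q : ℤ) * ((q * (q ^ r * e) : ℕ) : ℤ) = ((q ^ 2 * (q ^ r * e) : ℕ) : ℤ) * 1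
      push_cast; ring)
    (by
      change (q : ℤ) * (e * b) + -(e * b) * q = ((q ^ 2 * (q ^ r * e) : ℕ) : ℤ) * 0
      ring)
    (by
      change c * f * ((q * (q ^ r * e) : ℕ) : ℤ) = q * ((q ^ r * M : ℕ) : ℤ) * c
      push_cast
      rw [hf']; ring)
    (by
      change c * f * (e * b) + -s * q = 1
      rw [hf'] at hcb
      linear_combination hcb) τ
  rw [h, Jd]
  congr 1
  apply UpperHalfPlane.ext
  have hq : (q : ℂ) ≠ 0 := by exact_mod_cast NeZero.ne q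
  rw [coe_tri, coe_tri, coe_shf]
  push_cast
  field_simp
  ring

variable {K K' : Type*} [Field K] [Field K'] {i : K →+* K'} {ι : K →+* ℂ} {ι' : K' →+* ℂ}

theorem pow_dvd_cases {q M d : ℕ} (hq : q.Prime) (k : ℕ) (hd : d ∣ q ^ (k + 1) * M) :
    d ∣ q ^ k * M ∨ ∃ e, e ∣ M ∧ d = q ^ (k + 1) * e := by
  induction k generalizing d with
  | zero =>
    rw [zero_add, pow_one] at hd
    rw [zero_add, pow_one, pow_zero, one_mul]
    exact dvd_cases hq hd
  | succ k ih =>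
    have h1 : d ∣ q * (q ^ (k + 1) * M) := by
      have : q * (q ^ (k + 1) * M) = q ^ (k + 1 + 1) * M := by ring
      rwa [this]
    rcases dvd_cases hq h1 with h | ⟨e', he', rfl⟩
    · exact Or.inl h
    · rcases ih he' with h | ⟨e, he, rfl⟩
      · left
        have : q ^ (k + 1) * M = q * (q ^ k * M) := by ring
        rw [this]
        exact mul_dvd_mul_left _ h
      · exact Or.inr ⟨e, he, by ring⟩

theorem sq_dvd_casesR {q M d : ℕ} (hq : q.Prime) (r : ℕ) (hd : d ∣ q ^ 2 * (q ^ r * M)) :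
    d ∣ q * (q ^ r * M) ∨ ∃ e, e ∣ M ∧ d = q ^ 2 * (q ^ r * e) := by
  have h1 : d ∣ q ^ (r + 1 + 1) * M := by
    have : q ^ (r + 1 + 1) * M = q ^ 2 * (q ^ r * M) := by ring
    rwa [this]
  rcases pow_dvd_cases hq (r + 1) h1 with h | ⟨e, he, rfl⟩
  · left
    have : q * (q ^ r * M) = q ^ (r + 1) * M := by ring
    rwa [this]
  · exact Or.inr ⟨e, he, by ring⟩

theorem hasExp_al_outR {c b s : ℤ} (hcb : M * c * b - q * s = 1) {ζ : K'ˣ}
    (hζ : ι' ζ = Complex.exp (2 * Real.pi * Complex.I * b / (q ^ (r + 1) : ℕ))) {e : ℕ} [NeZero e]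
    (he : e ∣ M) :
    HasExp ι' (qN 1) (compW (fun τ => al q (q ^ r * M) c • τ) (Jd (q ^ 2 * (q ^ r * e))))
      (twist ζ (ModularCurve.qExpand K' (q ^ r * e) (ModularCurve.jqModC K'))) := by
  have h1 := (hasExp_Jd (d := q ^ r * e) ι').twist (s' := qN 1) ζ (shf (q ^ (r + 1)) b) (by
    intro τ
    rw [qN_shf, hζ])
  exact h1.congr fun τ => (Jd_alR hcb he τ).symm

theorem wExp_alR (hcomp : ι'.comp i = ι) (hq : q.Prime) (hN : N = q ^ 2 * (q ^ r * M))
    {c b s : ℤ} (hcb : M * c * b - q * s = 1) {ζ : K'ˣ}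
    (hζ : ι' ζ = Complex.exp (2 * Real.pi * Complex.I * b / (q ^ (r + 1) : ℕ))) :
    WExp i ι ι' N (fun τ => al q (q ^ r * M) c • τ) where
  comp := hcomp
  surj := al_surj q (q ^ r * M) c
  exp d hd0 hd := by
    subst hN
    rcases sq_dvd_casesR hq r hd with h | ⟨e, he, rfl⟩
    · exact ⟨_, hasExp_al_in c h⟩
    · have : NeZero e := ⟨by
        rintro rfl
        exact NeZero.ne (q ^ 2 * (q ^ r * 0)) (by rw [Nat.mul_zero, Nat.mul_zero])⟩
      exact ⟨_, hasExp_al_outR hcb hζ he⟩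

end Al

section Nrm

variable {K : Type u} [Field K] {q M N r : ℕ} [NeZero q] [NeZero M] [NeZero N]

/-- the expansions of the conjugates exist -/
theorem wExp_alcR (ι : K →+* ℂ) (hq : q.Prime) (hqM : ¬ q ∣ M) (hN : N = q ^ 2 * (q ^ r * M))
    (c : Fin q) :
    WExp ι ι (RingHom.id ℂ) N (fun τ => al q (q ^ r * M) ((c : ℕ) : ℤ) • τ) := by
  by_cases hc : (c : ℕ) = 0
  · refine ⟨RingHom.id_comp ι, al_surj q (q ^ r * M) _, fun d hd0 hd => ?_⟩
    refine ⟨ModularCurve.qExpand ℂ d (ModularCurve.jqModC ℂ), ?_⟩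
    rw [hc, Nat.cast_zero, al_zero]
    exact (hasExp_Jd (d := d) (RingHom.id ℂ)).congr fun τ => by rw [compW_apply, one_smul]
  · obtain ⟨b, s, hbr⟩ := exists_bz hq hqM hc c.2
    exact wExp_alR (K' := ℂ) (i := ι) (ι := ι) (ι' := RingHom.id ℂ) (RingHom.id_comp ι) hq hN
      (c := ((c : ℕ) : ℤ)) (b := b) (s := s) hbr
      (ζ := Units.mk0 (Complex.exp (2 * Real.pi * Complex.I * b / (q ^ (r + 1) : ℕ)))
        (Complex.exp_ne_zero _)) rfl

theorem thc_lowR (ι : K →+* ℂ) (hq : q.Prime) (hqM : ¬ q ∣ M) (hN : N = q ^ 2 * (q ^ r * M))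
    (c : Fin q) (y : F0 K (q * (q ^ r * M))) :
    (wExp_alcR ι hq hqM hN c).thF (inclusion (F0_mono (dvd_sq₂ hN)) y) =
      ModularCurve.coeffMap ι (y : LaurentSeries K) := by
  set H := wExp_alcR ι hq hqM hN c with hH
  let f : F0 K (q * (q ^ r * M)) →+* LaurentSeries ℂ :=
    H.thF.comp (inclusion (F0_mono (K := K) (dvd_sq₂ hN))).toRingHom
  let g : F0 K (q * (q ^ r * M)) →+* LaurentSeries ℂ :=
    (ModularCurve.coeffMap ι).comp (F0 K (q * (q ^ r * M))).val.toRingHom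
  have hfg : f = g := by
    apply ringHom_ext_adjoin
    · intro a
      change H.thF (algebraMap K (F0 K N) a) =
        ModularCurve.coeffMap ι (algebraMap K (LaurentSeries K) a)
      rw [H.thF_C, ModularCurve.algebraMap_laurentSeries_eq_single, ModularCurve.coeffMap_single]
      rfl
    · rintro x ⟨d, hd0, hd, rfl⟩
      change H.thF ⟨_, _⟩ = ModularCurve.coeffMap ι
        (ModularCurve.qExpand K d (ModularCurve.jqModC K))
      rw [coeffMap_jq]
      exact H.thF_gen (hd.trans (dvd_sq₂ hN)) (hasExp_al_in _ hd) _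
  exact congrArg (fun φ : F0 K (q * (q ^ r * M)) →+* LaurentSeries ℂ => φ y) hfg

theorem jqR_mem (hN : N = q ^ 2 * (q ^ r * M)) :
    ModularCurve.qExpand K (q ^ 2 * (q ^ r * 1)) (ModularCurve.jqModC K) ∈ F0 K N :=
  subset_adjoin K _ (gens_dvd (hN ▸ mul_dvd_mul_left (q ^ 2) (mul_dvd_mul_left (q ^ r)
    (one_dvd M))))

theorem jqR_coeff_zero (hq : q.Prime) :
    (ModularCurve.qExpand K (q ^ 2 * (q ^ r * 1)) (ModularCurve.jqModC K)).coeff
      (-((q ^ r : ℕ) : ℤ)) = 0 := by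
  apply ModularCurve.qExpand_coeff_of_not_dvd
  rw [Int.dvd_neg]
  intro h
  have h1 : q ^ 2 * (q ^ r * 1) ∣ q ^ r := by exact_mod_cast h
  have h2 := Nat.le_of_dvd (pow_pos hq.pos r) h1
  have h3 : 1 < q ^ 2 := Nat.one_lt_pow (by norm_num) hq.one_lt
  have h4 : 0 < q ^ r := pow_pos hq.pos r
  rw [mul_one] at h2
  nlinarith

theorem jqR_coeff_one :
    (ModularCurve.qExpand K (q ^ r * 1) (ModularCurve.jqModC K)).coeff
      (-((q ^ r : ℕ) : ℤ)) = 1 := by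
  have h4 := ModularCurve.qExpand_coeff_mul (q ^ r * 1) (ModularCurve.jqModC K) (-1)
  have h5 : (((q ^ r * 1 : ℕ) : ℤ)) * (-1) = -((q ^ r : ℕ) : ℤ) := by
    rw [mul_one]; ring
  rw [h5] at h4
  rw [h4, jqModC_coeff_neg_one]

theorem thc_coeff_zeroR (ι : K →+* ℂ) (hq : q.Prime) (hqM : ¬ q ∣ M)
    (hN : N = q ^ 2 * (q ^ r * M)) (c : Fin q) (hc : (c : ℕ) = 0) :
    ((wExp_alcR ι hq hqM hN c).thF ⟨_, jqR_mem hN⟩).coeff (-((q ^ r : ℕ) : ℤ)) = 0 := by
  have h1 : HasExp (RingHom.id ℂ) (qN 1)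
      (compW (fun τ => al q (q ^ r * M) ((c : ℕ) : ℤ) • τ) (Jd (q ^ 2 * (q ^ r * 1))))
      (ModularCurve.qExpand ℂ (q ^ 2 * (q ^ r * 1)) (ModularCurve.jqModC ℂ)) := by
    rw [hc, Nat.cast_zero, al_zero]
    exact (hasExp_Jd (d := q ^ 2 * (q ^ r * 1)) (RingHom.id ℂ)).congr fun τ => by
      rw [compW_apply, one_smul]
  rw [(wExp_alcR ι hq hqM hN c).thF_gen (d := q ^ 2 * (q ^ r * 1))
    (hN ▸ mul_dvd_mul_left (q ^ 2) (mul_dvd_mul_left (q ^ r) (one_dvd M))) h1]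
  exact jqR_coeff_zero hq

theorem thc_coeffR (ι : K →+* ℂ) (hq : q.Prime) (hqM : ¬ q ∣ M) (hN : N = q ^ 2 * (q ^ r * M))
    (c : Fin q) (hc : (c : ℕ) ≠ 0) : ∃ b s : ℤ, (M : ℤ) * (c : ℕ) * b - q * s = 1 ∧
    ((wExp_alcR ι hq hqM hN c).thF ⟨_, jqR_mem hN⟩).coeff (-((q ^ r : ℕ) : ℤ)) *
      Complex.exp (2 * Real.pi * Complex.I * b / q) = 1 := by
  obtain ⟨b, s, hbr⟩ := exists_bz hq hqM hc c.2
  refine ⟨b, s, hbr, ?_⟩
  set ζ : ℂˣ := Units.mk0 (Complex.exp (2 * Real.pi * Complex.I * b / (q ^ (r + 1) : ℕ)))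
    (Complex.exp_ne_zero _) with hζ
  have hζ' : (RingHom.id ℂ) (ζ : ℂ) =
    Complex.exp (2 * Real.pi * Complex.I * b / (q ^ (r + 1) : ℕ)) := rfl
  have h1 := (wExp_alcR ι hq hqM hN c).thF_gen (d := q ^ 2 * (q ^ r * 1))
    (hN ▸ mul_dvd_mul_left (q ^ 2) (mul_dvd_mul_left (q ^ r) (one_dvd M)))
    (hasExp_al_outR (ι' := RingHom.id ℂ) (r := r) hbr hζ' (one_dvd M)) (jqR_mem hN)
  rw [h1, twist_coeff, jqR_coeff_one, mul_one]
  have h5 : Complex.exp (2 * Real.pi * Complex.I * b / q) = ((ζ ^ ((q ^ r : ℕ) : ℤ) : ℂˣ) : ℂ) := by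
    rw [Units.val_zpow_eq_zpow_val, zpow_natCast]
    have h6 : (ζ : ℂ) = Complex.exp (2 * Real.pi * Complex.I * b / (q ^ (r + 1) : ℕ)) := rfl
    rw [h6, ← Complex.exp_nat_mul]
    congr 1
    have hq0 : (q : ℂ) ≠ 0 := by exact_mod_cast NeZero.ne q
    push_cast
    field_simp
    ring
  rw [h5, ← Units.val_mul, ← zpow_add, neg_add_cancel, zpow_zero, Units.val_one]

/-- **The norm is the product of the conjugates.** -/
theorem coeffMap_nrm_alR (ι : K →+* ℂ) (hq : q.Prime) (hqM : ¬ q ∣ M)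
    (hN : N = q ^ 2 * (q ^ r * M)) (x : F0 K N) :
    ModularCurve.coeffMap ι (nrm hN x : LaurentSeries K) =
      ∏ c : Fin q, (wExp_alcR ι hq hqM hN c).thF x := by
  have : CharZero K := ι.charZero
  let _ := algI (F0_le_sq (K := K) (q := q) (M := q ^ r * M) hN)
  obtain ⟨hfd, hfr⟩ := finrank_sqR (K := K) ι hq hqM hN
  let j1 : F0 K (q * (q ^ r * M)) →+* LaurentSeries ℂ :=
    (ModularCurve.coeffMap ι).comp (F0 K (q * (q ^ r * M))).val.toRingHom
  let σ : Fin q → F0 K N →+* LaurentSeries ℂ := fun c => (wExp_alcR ι hq hqM hN c).thF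
  have hσ : ∀ k y, σ k (algebraMap (F0 K (q * (q ^ r * M))) (F0 K N) y) = j1 y :=
    fun k y => thc_lowR ι hq hqM hN k y
  have hinj : Function.Injective σ := by
    intro a c hab
    have hab' : ((wExp_alcR ι hq hqM hN a).thF ⟨_, jqR_mem hN⟩).coeff (-((q ^ r : ℕ) : ℤ)) =
        ((wExp_alcR ι hq hqM hN c).thF ⟨_, jqR_mem hN⟩).coeff (-((q ^ r : ℕ) : ℤ)) :=
      congrArg (fun φ : F0 K N →+* LaurentSeries ℂ =>
        (φ ⟨_, jqR_mem hN⟩).coeff (-((q ^ r : ℕ) : ℤ))) hab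
    by_cases ha : (a : ℕ) = 0 <;> by_cases hc : (c : ℕ) = 0
    · exact Fin.ext (ha.trans hc.symm)
    · obtain ⟨b, s, hbr, h1⟩ := thc_coeffR ι hq hqM hN c hc
      rw [← hab', thc_coeff_zeroR ι hq hqM hN a ha, zero_mul] at h1
      exact absurd h1 zero_ne_one
    · obtain ⟨b, s, hbr, h1⟩ := thc_coeffR ι hq hqM hN a ha
      rw [hab', thc_coeff_zeroR ι hq hqM hN c hc, zero_mul] at h1
      exact absurd h1 zero_ne_one
    · obtain ⟨b, s, hbr, h1⟩ := thc_coeffR ι hq hqM hN a ha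
      obtain ⟨b', s', hbr', h2⟩ := thc_coeffR ι hq hqM hN c hc
      rw [hab'] at h1
      have h3 := exp_eq_imp hq.ne_zero (mul_left_cancel₀ (left_ne_zero_of_mul_eq_one h1)
        (h1.trans h2.symm))
      obtain ⟨t, ht⟩ := h3
      have h4 : (q : ℤ) ∣ ((a : ℕ) : ℤ) - ((c : ℕ) : ℤ) := by
        have hb : b = b' + q * t := by linear_combination ht
        refine ⟨-(M * ((a : ℕ) : ℤ) * ((c : ℕ) : ℤ) * t) + s * ((c : ℕ) : ℤ) -
          s' * ((a : ℕ) : ℤ), ?_⟩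
        rw [hb] at hbr
        linear_combination ((c : ℕ) : ℤ) * hbr - ((a : ℕ) : ℤ) * hbr'
      apply al_inj (M := q ^ r * M) (NeZero.ne _) (NeZero.ne q)
      rw [al_inv, al_mul, al_mem_iff (NeZero.ne _) (NeZero.ne q), ← sub_eq_add_neg]
      exact h4
  exact norm_eq_prod_of_card j1 σ hσ hinj (by rw [hfr, Fintype.card_fin]) x

end Nrm

end Fermat.Agent.SF
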