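import Mathlib
import Fermat.Agent.SF.PowR

/-!
The Atkin–Lehner involution `w_Q` of `X₀(Q M)`, `Q = q ^ k`; Galois stability of the triviality of
the transfers.
-/

set_option autoImplicit false
set_option linter.unusedSectionVars false

open Matrix.SpecialLinearGroup CongruenceSubgroup ModularGroup
open scoped MatrixGroups ModularForm Manifold
open UpperHalfPlane hiding I J
open Complex (I)
open Fermat.Agent.ModFun Fermat.Agent.ESCore Fermat.Agent.ESCore.Gal IntermediateField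
open Fermat.Agent.LG

noncomputable section

universe u

namespace Fermat.Agent.SF

section Swap

variable {q M N k : ℕ} [NeZero q] [NeZero M] [NeZero N]

/-- the intermediate matrices -/
def gi (B : Bez (q ^ k) M) {i j : ℕ} (hij : i + j = k) : SL(2, ℤ) :=
  ⟨!![(q : ℤ) ^ i, B.y; M, (q : ℤ) ^ j * B.w], by
  rw [Matrix.det_fin_two_of]
  have h1 := B.det
  have h2 : (((q ^ k : ℕ) : ℤ)) = (q : ℤ) ^ i * (q : ℤ) ^ j := by
    rw [← hij, pow_add]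
    push_cast
    ring
  rw [h2] at h1
  linear_combination h1⟩

theorem gi_mem (B : Bez (q ^ k) M) {i j : ℕ} (hij : i + j = k) : gi B hij ∈ Gamma0 M := by
  rw [Gamma0_mem, ZMod.intCast_zmod_eq_zero_iff_dvd]
  change (M : ℤ) ∣ M
  exact dvd_rfl

theorem W_eq_gi (B : Bez (q ^ k) M) {i j : ℕ} (hij : i + j = k) (τ : ℍ) :
    tri (q ^ i) 0 1 (B.W τ) = gi B hij • tri (q ^ j) 0 1 τ := by
  apply UpperHalfPlane.ext
  have e1 := denom_SL_ne_zero B.g0 (tri (q ^ k) 0 1 τ)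
  have e2 := denom_SL_ne_zero (gi B hij) (tri (q ^ j) 0 1 τ)
  have c1 := coe_smul_SL B.g0 (tri (q ^ k) 0 1 τ)
  have c2 := coe_smul_SL (gi B hij) (tri (q ^ j) 0 1 τ)
  rw [coe_tri] at e1 e2 c1 c2
  rw [Bez.W, coe_tri, c1, c2]
  have h1 : (B.g0 0 0 : ℂ) = 1 := by
    have : B.g0 0 0 = 1 := rfl
    rw [this]; norm_num
  have h2 : (B.g0 0 1 : ℂ) = B.y := rfl
  have h3 : (B.g0 1 0 : ℂ) = M := by
    have : B.g0 1 0 = M := rfl
    rw [this]; norm_num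
  have h4 : (B.g0 1 1 : ℂ) = (q : ℂ) ^ k * B.w := by
    have : B.g0 1 1 = ((q ^ k : ℕ) : ℤ) * B.w := rfl
    rw [this]; push_cast; ring
  have h5 : (gi B hij 0 0 : ℂ) = (q : ℂ) ^ i := by
    have : gi B hij 0 0 = (q : ℤ) ^ i := rfl
    rw [this]; push_cast; ring
  have h6 : (gi B hij 0 1 : ℂ) = B.y := rfl
  have h7 : (gi B hij 1 0 : ℂ) = M := by
    have : gi B hij 1 0 = M := rfl
    rw [this]; norm_num
  have h8 : (gi B hij 1 1 : ℂ) = (q : ℂ) ^ j * B.w := by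
    have : gi B hij 1 1 = (q : ℤ) ^ j * B.w := rfl
    rw [this]; push_cast; ring
  rw [h3, h4] at e1
  rw [h7, h8] at e2
  rw [h1, h2, h3, h4, h5, h6, h7, h8]
  have hq : (q : ℂ) ≠ 0 := by exact_mod_cast NeZero.ne q
  have hk : (q : ℂ) ^ k = (q : ℂ) ^ i * (q : ℂ) ^ j := by rw [← pow_add, hij]
  push_cast at e1 e2 ⊢
  rw [hk] at e1 ⊢
  have e3 : (M : ℂ) * (((q : ℂ) ^ i * (q : ℂ) ^ j * τ + 0) / 1) +
      (q : ℂ) ^ i * (q : ℂ) ^ j * B.w =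
      (q : ℂ) ^ i * (M * (((q : ℂ) ^ j * τ + 0) / 1) + (q : ℂ) ^ j * B.w) := by ring
  rw [e3]
  have hqi : (q : ℂ) ^ i ≠ 0 := pow_ne_zero i hq
  field_simp
  ring

theorem swapR (B : Bez (q ^ k) M) {i j : ℕ} (hij : i + j = k) {d : ℕ} [NeZero d] (hd : d ∣ M) :
    JSwap B.W (q ^ i * d) (q ^ j * d) := by
  have h : ∀ {i j : ℕ} (_ : i + j = k), ∀ τ, Jd (q ^ i * d) (B.W τ) = Jd (q ^ j * d) τ := by
    intro i j hij τ
    rw [Jd, Jd, tri_mul_one, tri_mul_one, W_eq_gi B hij]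
    exact Jd_invariant hd (gi_mem B hij) _
  exact ⟨h hij, h (by omega)⟩

theorem dvd_pow_mul {q M d k : ℕ} (hq : q.Prime) (hd : d ∣ q ^ k * M) :
    ∃ i j e, i + j = k ∧ e ∣ M ∧ d = q ^ i * e := by
  obtain ⟨a, e, ha, he, rfl⟩ := (Nat.dvd_mul).mp hd
  obtain ⟨i, hi, rfl⟩ := (Nat.dvd_prime_pow hq).mp ha
  exact ⟨i, k - i, e, by omega, he, rfl⟩

theorem wPermR (B : Bez (q ^ k) M) (hq : q.Prime) (hN : N = q ^ k * M) : WPerm N B.W where
  perm d hd0 hd := by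
    subst hN
    obtain ⟨i, j, e, hij, he, rfl⟩ := dvd_pow_mul hq hd
    have : NeZero e := ⟨by rintro rfl; exact NeZero.ne (q ^ i * 0) (Nat.mul_zero _)⟩
    exact ⟨q ^ j * e, inferInstance, by
      rw [← hij, pow_add, mul_assoc]
      exact (mul_dvd_mul_left _ he).trans (dvd_mul_left _ _), swapR B hij he⟩

variable {K : Type u} [Field K]

/-- The Atkin–Lehner involution of the function field of `X₀(q ^ k M)`. -/
def wFR (B : Bez (q ^ k) M) (ι : K →+* ℂ) (hq : q.Prime) (hN : N = q ^ k * M) :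
    F0 K N ≃+* F0 K N :=
  (wPermR B hq hN).wF ι

theorem wFR_wFR (B : Bez (q ^ k) M) {ι : K →+* ℂ} (hq : q.Prime) (hN : N = q ^ k * M)
    (x : F0 K N) : wFR B ι hq hN (wFR B ι hq hN x) = x := (wPermR B hq hN).wF_wF x

theorem wFR_C (B : Bez (q ^ k) M) {ι : K →+* ℂ} (hq : q.Prime) (hN : N = q ^ k * M) (a : K) :
    wFR B ι hq hN (algebraMap K _ a) = algebraMap K _ a := (wPermR B hq hN).wF_C a

theorem wFR_actF (B : Bez (q ^ k) M) {ι : K →+* ℂ} (hq : q.Prime) (hN : N = q ^ k * M)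
    (d : K ≃+* K) (x : F0 K N) :
    wFR B ι hq hN (actF d N x) = actF d N (wFR B ι hq hN x) := (wPermR B hq hN).wF_actF d x

theorem wFR_gen (B : Bez (q ^ k) M) {ι : K →+* ℂ} (hq : q.Prime) (hN : N = q ^ k * M)
    {i j : ℕ} (hij : i + j = k) {d : ℕ} [NeZero d] (hd : d ∣ M)
    (h : ModularCurve.qExpand K (q ^ i * d) (ModularCurve.jqModC K) ∈ F0 K N) :
    (wFR B ι hq hN ⟨_, h⟩ : LaurentSeries K) =
      ModularCurve.qExpand K (q ^ j * d) (ModularCurve.jqModC K) :=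
  (wPermR B hq hN).wF_gen (swapR B hij hd) (by
    rw [hN, ← hij, pow_add, mul_right_comm]
    exact (mul_dvd_mul_left _ hd).trans (dvd_mul_right _ _)) h

end Swap

section P

variable {K : Type u} [Field K] {q M N r : ℕ} [NeZero q] [NeZero M] [NeZero N] {ι : K →+* ℂ}

theorem hN2 (hN : N = q ^ (r + 2) * M) : N = q ^ 2 * (q ^ r * M) := by rw [hN]; ring

/-- **(P)** -/
theorem powCR (hq : q.Prime) (hqM : ¬ q ∣ M) (hN : N = q ^ 2 * (q ^ r * M))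
    {χ : Gamma0 N →* ℂˣ}
    {y : LaurentSeries K} (hy : XSer ι N χ y) (hy0 : y ≠ 0) {m : ℕ} (hm : 0 < m)
    (hχm : χ ^ m = 1) (hT : TrOne q (q ^ r * M) χ) : PowC hN m ⟨y ^ m, hy.pow_mem_F0 hχm⟩ := by
  have hy' := hy
  obtain ⟨f, hf, hf', hfy⟩ := hy'
  exact powC_of_trOneR hq hqM hN hf hf' hT hm
    (fun h => pow_ne_zero m hy0 (congrArg Subtype.val h)) (hfy.pow m)

/-- the converse of **(P)** -/
theorem trOneR (hq : q.Prime) (hqM : ¬ q ∣ M) (hN : N = q ^ 2 * (q ^ r * M))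
    {χ : Gamma0 N →* ℂˣ}
    (hpar : IsPar χ) {y : LaurentSeries K} (hy : XSer ι N χ y) (hy0 : y ≠ 0) {m : ℕ} (hm : 0 < m)
    (hχm : χ ^ m = 1) (hP : PowC hN m ⟨y ^ m, hy.pow_mem_F0 hχm⟩) : TrOne q (q ^ r * M) χ := by
  have hy' := hy
  obtain ⟨f, hf, hf', hfy⟩ := hy'
  have h0 : (⟨y ^ m, hy.pow_mem_F0 hχm⟩ : F0 K N) ≠ 0 :=
    fun h => pow_ne_zero m hy0 (congrArg Subtype.val h)
  exact trOne_of_powCR hq hqM hN hf hpar hf' hm (h := ⟨y ^ m, hy.pow_mem_F0 hχm⟩) h0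
    (hfy.pow m) hP

theorem hasExp_slash_powR {k : ℕ} (B : Bez (q ^ k) M) (hq : q.Prime) (hN : N = q ^ k * M)
    {χ : Gamma0 N →* ℂˣ} {m : ℕ} {f : ℍ → ℂ} (hf : f ∈ MB)
    (hf' : ∀ (γ : Gamma0 N) (τ : ℍ), f ((γ : SL(2, ℤ)) • τ) = (χ γ : ℂ) * f τ)
    (hχm : χ ^ m = 1) {h : F0 K N} (hh : HasExp ι (qN 1) (f ^ m) (h : LaurentSeries K)) :
    HasExp ι (qN 1) (B.slash f ^ m) (wFR B ι hq hN h : LaurentSeries K) := by
  have h1 := B.slash_smul dvd_rfl hN hf'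
  have h2 : compW B.W (f ^ m) = B.slash f ^ m := rfl
  obtain ⟨z, hz⟩ := exists_exp_of_MB (pow_mem (B.slash_mem_MB hf) m) 1 fun τ => by
    have h3 : (((1 : ℕ) : ℝ) +ᵥ τ : ℍ) = ModularGroup.T • τ := by
      rw [modular_T_smul, Nat.cast_one]
    have h4 := h1 ⟨ModularGroup.T, by
      rw [← zpow_one ModularGroup.T, Gamma0_mem, ModularGroup.coe_T_zpow]; simp⟩ τ
    have h5 : ∀ γ, ((B.wChar dvd_rfl hN χ γ : ℂˣ) : ℂ) ^ m = 1 := by
      intro γ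
      rw [← Units.val_pow_eq_pow_val, ← MonoidHom.pow_apply, ← B.wChar_pow, hχm, B.wChar_one,
        MonoidHom.one_apply, Units.val_one]
    rw [h3, Pi.pow_apply, h4, mul_pow, h5, one_mul, Pi.pow_apply]
  have h3 := (wPermR B hq hN).wF_hasExp' hh (z := z) hz
  rw [h2] at h3
  exact h3

/-- **(P')** -/
theorem powCR_w (B : Bez (q ^ (r + 2)) M) (hq : q.Prime) (hqM : ¬ q ∣ M)
    (hN : N = q ^ (r + 2) * M)
    {χ : Gamma0 N →* ℂˣ} {y : LaurentSeries K} (hy : XSer ι N χ y) (hy0 : y ≠ 0) {m : ℕ}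
    (hm : 0 < m) (hχm : χ ^ m = 1) (hT : TrOne q (q ^ r * M) (B.wChar dvd_rfl hN χ)) :
    PowC (hN2 hN) m (wFR B ι hq hN ⟨y ^ m, hy.pow_mem_F0 hχm⟩) := by
  have hy' := hy
  obtain ⟨f, hf, hf', hfy⟩ := hy'
  have h0 : (⟨y ^ m, hy.pow_mem_F0 hχm⟩ : F0 K N) ≠ 0 :=
    fun h => pow_ne_zero m hy0 (congrArg Subtype.val h)
  refine powC_of_trOneR hq hqM (hN2 hN) (B.slash_mem_MB hf) (B.slash_smul dvd_rfl hN hf') hT hm ?_
    (hasExp_slash_powR B hq hN hf hf' hχm (hfy.pow m))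
  exact (map_ne_zero_iff (wFR B ι hq hN) (wFR B ι hq hN).injective).mpr h0

/-- the converse of **(P')** -/
theorem trOneR_w (B : Bez (q ^ (r + 2)) M) (hq : q.Prime) (hqM : ¬ q ∣ M)
    (hN : N = q ^ (r + 2) * M)
    {χ : Gamma0 N →* ℂˣ} (hpar : IsPar χ) {y : LaurentSeries K} (hy : XSer ι N χ y) (hy0 : y ≠ 0)
    {m : ℕ} (hm : 0 < m) (hχm : χ ^ m = 1)
    (hP : PowC (hN2 hN) m (wFR B ι hq hN ⟨y ^ m, hy.pow_mem_F0 hχm⟩)) :
    TrOne q (q ^ r * M) (B.wChar dvd_rfl hN χ) := by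
  have hy' := hy
  obtain ⟨f, hf, hf', hfy⟩ := hy'
  have h0 : (⟨y ^ m, hy.pow_mem_F0 hχm⟩ : F0 K N) ≠ 0 :=
    fun h => pow_ne_zero m hy0 (congrArg Subtype.val h)
  have h1 := hasExp_slash_powR B hq hN hf hf' hχm (h := ⟨y ^ m, hy.pow_mem_F0 hχm⟩) (hfy.pow m)
  have h2 : wFR B ι hq hN ⟨y ^ m, hy.pow_mem_F0 hχm⟩ ≠ 0 :=
    (map_ne_zero_iff (wFR B ι hq hN) (wFR B ι hq hN).injective).mpr h0
  exact trOne_of_powCR hq hqM (hN2 hN) (B.slash_mem_MB hf) (B.wChar_isPar dvd_rfl hN hpar)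
    (B.slash_smul dvd_rfl hN hf') hm h2 h1 hP

end P

section Gal

variable {q M N r : ℕ} [NeZero q] [NeZero M] [NeZero N]

/-- **The triviality of the transfer is Galois stable.** -/
theorem trOneR_galX (hNE : NoEll N) (hq : q.Prime) (hqM : ¬ q ∣ M) (hN : N = q ^ (r + 2) * M)
    {m : ℕ} (hm : 0 < m) (σ : GQ) (χ : XG N m) (hpar : IsPar χ.1)
    (h : TrOne q (q ^ r * M) χ.1) :
    TrOne q (q ^ r * M) (galX N hm σ χ).1 := by
  obtain ⟨y, hy0, hy⟩ := exists_xSer hm χ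
  have h1 := powCR hq hqM (hN2 hN) hy hy0 hm χ.2.1 h
  have h2 := h1.actF σ.toRingEquiv
  have hy' := xSer_galX hm σ χ hy
  have hy'0 : ModularCurve.coeffMap (σ.toRingEquiv.toRingHom : Qb →+* Qb) y ≠ 0 := by
    rwa [Ne, _root_.map_eq_zero]
  refine trOneR hq hqM (hN2 hN) (isPar_galX hNE hm σ χ hpar) hy' hy'0 hm (galX N hm σ χ).2.1 ?_
  convert h2 using 1
  apply Subtype.ext
  exact (map_pow (ModularCurve.coeffMap (σ.toRingEquiv.toRingHom : Qb →+* Qb)) y m).symm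

/-- **The triviality of the transfer of the transform by `W` is Galois stable.** -/
theorem trOneR_w_galX (B : Bez (q ^ (r + 2)) M) (hNE : NoEll N) (hq : q.Prime) (hqM : ¬ q ∣ M)
    (hN : N = q ^ (r + 2) * M) {m : ℕ} (hm : 0 < m) (σ : GQ) (χ : XG N m) (hpar : IsPar χ.1)
    (h : TrOne q (q ^ r * M) (B.wChar dvd_rfl hN χ.1)) :
    TrOne q (q ^ r * M) (B.wChar dvd_rfl hN (galX N hm σ χ).1) := by
  obtain ⟨y, hy0, hy⟩ := exists_xSer hm χ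
  have h1 := powCR_w B hq hqM hN hy hy0 hm χ.2.1 h
  have h2 := h1.actF σ.toRingEquiv
  have hy' := xSer_galX hm σ χ hy
  have hy'0 : ModularCurve.coeffMap (σ.toRingEquiv.toRingHom : Qb →+* Qb) y ≠ 0 := by
    rwa [Ne, _root_.map_eq_zero]
  refine trOneR_w B hq hqM hN (isPar_galX hNE hm σ χ hpar) hy' hy'0 hm (galX N hm σ χ).2.1 ?_
  rw [← wFR_actF] at h2
  convert h2 using 2
  apply Subtype.ext
  exact (map_pow (ModularCurve.coeffMap (σ.toRingEquiv.toRingHom : Qb →+* Qb)) y m).symm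

end Gal

end Fermat.Agent.SF
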