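import Fermat.Agent.LG.R36c

set_option autoImplicit false

/-!
# The vanishing theorem for characters fixed by inertia, `q ^ (r + 2) ∥ N`
-/

open IsLocalRing CongruenceSubgroup Matrix.SpecialLinearGroup Polynomial
open scoped MatrixGroups

noncomputable section

namespace Fermat.Agent.SF

open Fermat.Agent.LG Fermat.Agent.ESCore Fermat.Agent.UnivDef

/-- **(CAR)** for `q ^ (r + 2) ∥ N`, `r ≥ 1` (with a bounded loss). -/
def CARRProp : Prop :=
  ∀ {q M N r : ℕ} [NeZero q] [NeZero M] [NeZero N] (_ : q.Prime) (_ : ¬ q ∣ M)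
    (_ : GoodLev q M) (_ : 1 ≤ r) (hN : N = q ^ (r + 2) * M)
    {A : ValuationSubring Qb} (_ : A.LiesOverPrime q) (B : Bez (q ^ (r + 2)) M),
    ∃ E : ℕ, E ≠ 0 ∧ ∀ {m : ℕ} (hm : 0 < m) (_ : ¬ q ∣ m) (χ : XG N m),
      IsPar χ.1 → (∀ σ ∈ A.inertiaSubgroupIn ℚ, galX N hm σ χ = χ) →
      TrOne q (q ^ r * M) χ.1 → TrOne q (q ^ r * M) (B.wChar dvd_rfl hN χ.1) → χ ^ E = 1

end Fermat.Agent.SF
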