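import Fermat.Agent.SF.Asm
import Fermat.Agent.S05
import Fermat.Agent.S08
import Fermat.Agent.S43
import Fermat.Agent.S44

set_option autoImplicit false

/-!
# Level lowering from the conductor level to the level two
-/

open WeierstrassCurve WeierstrassCurve.Affine WeierstrassCurve.Affine.Point
open CuspForm ModularFormClass UpperHalfPlane
open FreyPackage

namespace Fermat.Agent.SF

theorem lowerZ_all (P : FreyPackage)
    (hirr : GaloisRepIsIrreducible (K := AlgebraicClosure ℚ) ℚ P.freyCurve P.p) (N : ℕ)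
    (hcond : P.IsConductorLevel N) (hmod : P.ModularRepOfLevel N) :
    ∃ M : ℕ, M ∣ 2 ∧ P.ModularRepOfLevel M := by
  induction N using Nat.strong_induction_on with
  | _ N ih =>
    have step : ∀ (q M : ℕ), q ∣ N → M ∣ N → ¬ q ∣ M → P.ModularRepOfLevel M →
        ∃ M : ℕ, M ∣ 2 ∧ P.ModularRepOfLevel M := by
      intro q M hqN hMN hqM hM
      have hM0 : 0 < M := Nat.pos_of_dvd_of_pos hMN hcond.pos
      have hlt : M < N := lt_of_le_of_ne (Nat.le_of_dvd hcond.pos hMN) fun h => hqM (h ▸ hqN)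
      exact ih M hlt (hcond.of_dvd hMN hM0) hM
    by_cases hpN : P.p ∣ N
    · obtain ⟨M, hMN, hpM, hM⟩ := Fermat.Agent.S44.result P hcond hpN hirr hmod
      exact step _ M hpN hMN hpM hM
    · by_cases h : ∃ q : ℕ, q.Prime ∧ q ≠ 2 ∧ q ∣ N
      · obtain ⟨q, hq, hq2, hqN⟩ := h
        have hqp : q ≠ P.p := fun h => hpN (h ▸ hqN)
        obtain ⟨M, hMN, hqM, hM⟩ := Fermat.Agent.S43.result P hcond hq hq2 hqp hqN hirr hmod
          (Fermat.Agent.S05.result P hq hq2 hqp)
        exact step _ M hqN hMN hqM hM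
      · refine ⟨N, ?_, hmod⟩
        push Not at h
        rw [← Nat.prod_primeFactors_of_squarefree hcond.squarefree]
        have h1 : N.primeFactors ⊆ {2} := by
          intro q hq
          rw [Finset.mem_singleton]
          by_contra hq2
          exact h q (Nat.prime_of_mem_primeFactors hq) hq2 (Nat.dvd_of_mem_primeFactors hq)
        have h2 := Finset.prod_dvd_prod_of_subset N.primeFactors {2} (fun p : ℕ => p) h1
        rwa [Finset.prod_singleton] at h2

theorem exists_level_twoZ (hCARR : CARRProp) (P : FreyPackage) (hmod : P.freyCurve.IsModular)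
    (hirr : GaloisRepIsIrreducible (K := AlgebraicClosure ℚ) ℚ P.freyCurve P.p) :
    ∃ f : CuspForm (CongruenceSubgroup.Gamma0 2) 2, f ≠ 0 := by
  obtain ⟨N, hN, hNm⟩ := exists_conductorLevel hCARR P hmod
  obtain ⟨M, hM2, f, W, 𝔪, hf, -⟩ := lowerZ_all P hirr N hN hNm
  have hf0 : f ≠ 0 := hf.ne_zero
  rcases (Nat.dvd_prime Nat.prime_two).mp hM2 with rfl | rfl
  · exact absurd (Fermat.Agent.S08.result f) hf0
  · exact ⟨f, hf0⟩

end Fermat.Agent.SF
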