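import Fermat.Agent.SF.Sqf
import Fermat.Agent.RT.SetE
import Fermat.Prelude.Def_FreyPackage_IsConductorLevel

set_option autoImplicit false
set_option maxHeartbeats 400000
set_option linter.style.haveILetI false
set_option linter.unusedSectionVars false

/-!
# The Frey curve is modular of conductor level
-/

noncomputable section

open CongruenceSubgroup ModularFormClass
open WeierstrassCurve WeierstrassCurve.Affine WeierstrassCurve.Affine.Point

namespace Fermat.Agent.SF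

open Fermat.Agent.RT Fermat.Agent.RT.S58 Fermat.Agent.EC Fermat.Agent.GaloisBasics

/-- Two integral models have the same coefficients at the common good primes. -/
theorem apOfModel_eq {E : WeierstrassCurve ℚ} {W W' : WeierstrassCurve ℤ}
    (hW : W.IsIntegralModelOf E) (hW' : W'.IsIntegralModelOf E) (hΔ : W.Δ ≠ 0) (hΔ' : W'.Δ ≠ 0)
    {l : ℕ} (hl : l.Prime) (hg : W.IsGoodPrimeFor l) (hg' : W'.IsGoodPrimeFor l) :
    W.apOfModel l = W'.apOfModel l := by
  by_contra hne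
  have hd : (W.apOfModel l - W'.apOfModel l).natAbs ≠ 0 :=
    Int.natAbs_ne_zero.mpr (sub_ne_zero.mpr hne)
  obtain ⟨p, hp1, hp2⟩ := Nat.exists_infinite_primes
    ((W.apOfModel l - W'.apOfModel l).natAbs + l + 1)
  haveI : Fact p.Prime := ⟨hp2⟩
  have hlp : l ≠ p := by omega
  obtain ⟨A, hA⟩ := Fermat.Agent.GaloisBasics.exists_liesOverPrime hl
  obtain ⟨σ, hσ⟩ := Fermat.Agent.GaloisBasics.exists_isFrobeniusAt hl A hA
  have h1 := (modRep_frob (p := p) hΔ hl hg hlp hA hσ).1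
  have h2 := (modRep_frob (p := p) hΔ' hl hg' hlp hA hσ).1
  have h3 := trace_modRep_eq (p := p) hW hW' hΔ hΔ' σ
  rw [h1, h2] at h3
  have h4 : ((W.apOfModel l - W'.apOfModel l : ℤ) : ZMod p) = 0 := by
    push_cast
    rw [h3, sub_self]
  rw [ZMod.intCast_zmod_eq_zero_iff_dvd] at h4
  have h5 := Nat.le_of_dvd (Nat.pos_of_ne_zero hd) (Int.natCast_dvd.mp h4)
  omega

/-- **The Frey curve is modular of conductor level.** -/
theorem exists_conductorLevel (hCARR : CARRProp) (P : FreyPackage)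
    (hmod : P.freyCurve.IsModular) : ∃ N : ℕ, P.IsConductorLevel N ∧ P.ModularRepOfLevel N := by
  obtain ⟨W₁, hW₁, N₁, hN₁, f, hf, hfa⟩ := hmod
  have hΔ : P.freyCurveInt.Δ ≠ 0 := freyInt_Δ_ne_zero P
  have hss : P.freyCurveInt.IsSemistableModel := freyInt_semistable P
  have hW : P.freyCurveInt.IsIntegralModelOf P.freyCurve := freyInt_map P ▸ ⟨1, by simp⟩
  have hΔ₁ : W₁.Δ ≠ 0 := frey_model_Δ_ne_zero hW₁
  obtain ⟨M, g, hMN, hg, hgf⟩ := RT.AL.exists_newform N₁ hN₁ f hf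
  have hM0 : M ≠ 0 := fun h => hN₁.ne' (by rw [h, zero_dvd_iff] at hMN; exact hMN)
  haveI : NeZero M := ⟨hM0⟩
  let N : ℕ := N₁ * (P.freyCurveInt.Δ.natAbs * W₁.Δ.natAbs)
  have hN0 : N ≠ 0 := mul_ne_zero hN₁.ne'
    (mul_ne_zero (Int.natAbs_ne_zero.mpr hΔ) (Int.natAbs_ne_zero.mpr hΔ₁))
  have hMN' : M ∣ N := hMN.trans (dvd_mul_right _ _)
  have hag : ∀ l : ℕ, l.Prime → ¬ l ∣ N → P.freyCurveInt.IsGoodPrimeFor l ∧
      qCoeff g l = (P.freyCurveInt.apOfModel l : ℂ) := by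
    intro l hl hlN
    have hlN₁ : ¬ l ∣ N₁ := fun h => hlN (h.trans (dvd_mul_right _ _))
    have hg1 : P.freyCurveInt.IsGoodPrimeFor l := fun h => hlN
      (((Int.natCast_dvd.mp h).trans (dvd_mul_right _ _)).trans (dvd_mul_left _ _))
    have hg2 : W₁.IsGoodPrimeFor l := fun h => hlN
      (((Int.natCast_dvd.mp h).trans (dvd_mul_left _ _)).trans (dvd_mul_left _ _))
    refine ⟨hg1, ?_⟩
    rw [hgf l hl hlN₁, hfa l hl hg2 hlN₁, apOfModel_eq hW₁ hW hΔ₁ hΔ hl hg2 hg1]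
  have hsq : ∀ q : ℕ, q.Prime → ¬ q ^ 2 ∣ M := fun q hq =>
    sq_not_dvd hCARR hΔ hss hg hMN' hN0 hag hq
  have hbadM : ∀ q : ℕ, q.Prime → q ∣ M → (q : ℤ) ∣ P.freyCurveInt.Δ := by
    intro q hq hqM
    by_contra hgood
    rcases (exists_compare hΔ hg hMN' hN0 hag hq hgood).2 hqM (hsq q hq) with h | h
    · exact (ap_ne hq hgood).1 h
    · exact (ap_ne hq hgood).2 h
  have hsqM : Squarefree M := by
    rw [Nat.squarefree_iff_prime_squarefree]
    intro q hq h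
    exact hsq q hq (by rwa [pow_two])
  refine ⟨M, ⟨Nat.pos_of_ne_zero hM0, hsqM, fun q hq hqM => ?_⟩, ?_⟩
  · have hqp : Prime (q : ℤ) := Nat.prime_iff_prime_int.mp hq
    have h1 : (q : ℤ) ∣ (P.a ^ P.p * P.b ^ P.p * P.c ^ P.p) ^ 2 := by
      rw [← freyInt_Δ]
      exact Dvd.dvd.mul_left (hbadM q hq hqM) _
    have h2 := hqp.dvd_of_dvd_pow h1
    rw [← mul_pow, ← mul_pow] at h2
    exact hqp.dvd_of_dvd_pow h2
  · obtain ⟨𝔪, h𝔪, hp𝔪⟩ := FLTPrelim.exists_maximalIdeal_natCast_prime_mem P.pp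
    refine ⟨g, P.freyCurveInt, 𝔪, hg.1, hW, h𝔪, hp𝔪, fun l hl hgood hlM _ => ?_⟩
    have h1 := (exists_compare hΔ hg hMN' hN0 hag hl hgood).1 hlM
    refine ⟨((P.freyCurveInt.apOfModel l : ℤ) : integralClosure ℤ ℂ), ?_, ?_⟩
    · rw [h1]
      push_cast
      rfl
    · rw [sub_self]
      exact 𝔪.zero_mem

end Fermat.Agent.SF
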