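import Fermat.Agent.LG.R36b

set_option autoImplicit false

/-!
# Newforms of level divisible by `q ^ (r + 2)`: both traces are trivial
-/

open UpperHalfPlane hiding I
open Matrix Matrix.SpecialLinearGroup CongruenceSubgroup ModularForm ModularFormClass
open Fermat.Agent.ES Fermat.Agent.ESCore Fermat.Agent.DS Fermat.Agent.RT.Ihara
open Fermat.Agent.NF
open Multiplicative (toAdd ofAdd)
open scoped MatrixGroups

noncomputable section

namespace Fermat.Agent.SF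

variable {N M K q r : ℕ}

/-- the relation between `W_{qA}` and `W_A`, `A` divisible by `q` or not -/
theorem W_R2R {A : ℕ} (hq : q ≠ 0) {w y : ℤ} (hb : ((q : ℤ) * A) * w - K * y = 1) {j j' k : ℤ}
    (hj : y * (1 + j) = j' + q * k) : ∃ γ ∈ Gamma0 (q * A * K),
      Wm (q * A) K w y * !![1, 0; (A * K : ℤ) * j, 1] =
        (γ : Mat) * (!![1, j'; 0, (q : ℤ)] * Wm A K (q * w) y) := by
  have hq0 : (q : ℤ) ≠ 0 := by exact_mod_cast hq
  obtain ⟨b, hqb⟩ : ∃ b : ℤ, q * b = -(q + y * K * j) * (y + j' * (q * A) * w) +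
      y * (1 + j' * K) := by
    refine ⟨y * (A * w - k * K) - y - j' * (q * A) * w - y * K * j * j' * A * w, ?_⟩
    linear_combination y * hb + y * K * hj
  have hdet : ((q * A) * w * (q + y * K * j) - y * K) *
      (-(K * (1 + A * w * j)) * (y + j' * (q * A) * w) + w * A * (1 + j' * K)) -
      b * ((q * A) * K * (w * (q + (q * A) * w * j - 1))) = 1 := by
    apply mul_left_cancel₀ hq0
    linear_combination (-((q * A) * K * (w * (q + (q * A) * w * j - 1))) : ℤ) * hqb +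
      q * ((q * A) * w - K * y + 1) * hb
  obtain ⟨γ, hγ⟩ := exists_sl_of hdet
  refine ⟨γ, ?_, ?_⟩
  · rw [mem_G0]
    have : γ 1 0 = (q * A) * K * (w * (q + (q * A) * w * j - 1)) := by rw [hγ]; rfl
    rw [this]
    push_cast
    exact dvd_mul_right _ _
  · rw [hγ, Wm, Wm]
    ext a c
    fin_cases a <;> fin_cases c <;> simp [Matrix.mul_apply, Fin.sum_univ_two]
    · linear_combination (-(A : ℤ) * K) * hqb - (q * A + y * A * K * j) * hb
    · linear_combination (-((q : ℤ) * A) * w) * hqb - y * hb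
    · linear_combination (-((q : ℤ) * A) * K * (1 + A * w * j)) * hb
    · linear_combination (-((q : ℤ) * A) * w) * hb

theorem pow_e1 (q r K : ℕ) : q * q ^ (r + 1) * K = q ^ (r + 2) * K := by
  rw [← pow_succ' q (r + 1)]

theorem pow_e2 (q r K : ℕ) : q ^ (r + 2) * K = q * (q ^ (r + 1) * K) := by
  rw [pow_succ' q (r + 1), mul_assoc]

theorem corr_R2R (hq : q.Prime) (hK : K ≠ 0) :
    Corr (Gamma0 (q ^ (r + 2) * K)) (Gamma0 (q ^ (r + 1) * K)) (R2 q (q ^ (r + 1) * K)) := by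
  rw [pow_e2]
  exact corr_R2 hq (dvd_mul_of_dvd_left (dvd_pow_self q (Nat.succ_ne_zero r)) _)
    (mul_ne_zero (pow_ne_zero _ hq.ne_zero) hK)

theorem corr_UR (hq : q.Prime) :
    Corr (Gamma0 (q ^ (r + 2) * K)) (Gamma0 (q ^ (r + 1) * K)) (Um q) :=
  corr_U hq (dvd_mul_of_dvd_left (dvd_pow_self q (Nat.succ_ne_zero r)) _) (by rw [pow_e2])

/-- the trace of the transform under `W_{q^(r+2)}` is the transform under `W_{q^(r+1)}` of the
second trace -/
theorem opc_R2_WR {A : Type*} [AddCommGroup A] (hq : q.Prime) (hK : K ≠ 0) {w y : ℤ}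
    (hb : (q ^ (r + 2) : ℤ) * w - K * y = 1) {c : SL(2, ℤ) → A}
    (hc : AddOn (Gamma0 (q ^ (r + 2) * K)) c)
    {g : SL(2, ℤ)} (hg : g ∈ Gamma0 (q ^ (r + 1) * K)) :
    opc (Gamma0 (q ^ (r + 2) * K)) (R2 q (q ^ (r + 1) * K)) (opW (q ^ (r + 2)) K w y c) g =
      opW (q ^ (r + 1)) K (q * w) y (opc (Gamma0 (q ^ (r + 2) * K)) (Um q) c) g := by
  have hq0 : (q : ℤ) ≠ 0 := by exact_mod_cast hq.ne_zero
  have hb1 : (((q ^ (r + 2) : ℕ) : ℤ)) * w - K * y = 1 := by push_cast; exact hb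
  have hb2 : (((q ^ (r + 1) : ℕ) : ℤ)) * (q * w) - K * y = 1 := by
    push_cast
    rw [pow_succ (q : ℤ) (r + 1)] at hb
    linear_combination hb
  have hb3 : ((q : ℤ) * ((q ^ (r + 1) : ℕ) : ℤ)) * w - K * y = 1 := by
    linear_combination hb2
  have HW := corr_W (M := K) (pow_ne_zero (r + 2) hq.ne_zero) hb1
  have HW' := corr_W (M := K) (pow_ne_zero (r + 1) hq.ne_zero) hb2
  have HR := corr_R2R (r := r) hq hK
  have HU := corr_UR (K := K) (r := r) hq
  have hs := isPrim_prim hc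
  choose f k hf using fun j : Fin q => exists_fin_mod hq.pos (y * (1 + ((j : ℕ) : ℤ)))
  have hyq : IsCoprime (q : ℤ) y := by
    refine ⟨((q ^ (r + 1) : ℕ) : ℤ) * w, -K, ?_⟩
    linear_combination hb3
  have hinj : Function.Injective f := by
    intro i j hij
    have h1 := hf i
    have h2 := hf j
    rw [hij] at h1
    have h3 : (q : ℤ) ∣ y * (((i : ℕ) : ℤ) - ((j : ℕ) : ℤ)) :=
      ⟨k i - k j, by linear_combination h1 - h2⟩
    have h4 := hyq.dvd_of_dvd_mul_left h3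
    have h5 : ((i : ℕ) : ZMod q) = ((j : ℕ) : ZMod q) := by
      have := (ZMod.intCast_zmod_eq_zero_iff_dvd _ _).mpr h4
      push_cast at this
      exact sub_eq_zero.mp this
    rw [ZMod.natCast_eq_natCast_iff', Nat.mod_eq_of_lt i.2, Nat.mod_eq_of_lt j.2] at h5
    exact Fin.ext h5
  set F := Equiv.ofBijective f (Finite.injective_iff_bijective.mp hinj) with hF
  have key := sum_prim_comm (D := fun j => Wm (q ^ (r + 2)) K w y * R2 q (q ^ (r + 1) * K) j)
    (E := fun j => Um q j * Wm (q ^ (r + 1)) K (q * w) y)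
    (fun x => by rw [Matrix.det_mul]; exact mul_ne_zero (HW.det ()) (HR.det x))
    (fun x => by rw [Matrix.det_mul]; exact mul_ne_zero (HU.det x) (HW'.det ()))
    hs F (fun j => by
      obtain ⟨γ, hγ, e⟩ := W_R2R (K := K) (A := q ^ (r + 1)) hq.ne_zero hb3 (hf j)
      rw [pow_e1] at hγ
      refine ⟨1, 1, one_pos, one_pos, γ, hγ, ?_⟩
      rw [one_smul, one_smul]
      have e1 : R2 q (q ^ (r + 1) * K) j =
          !![1, 0; (((q ^ (r + 1) : ℕ) : ℤ) * K : ℤ) * ((j : ℕ) : ℤ), 1] := by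
        rw [R2]
        push_cast
        rfl
      have e2 : q ^ (r + 2) = q * q ^ (r + 1) := pow_succ' q (r + 1)
      rw [e1, e2, e]
      rfl) (m := (g : Mat)) (by rw [g.det_coe]; norm_num)
  rw [opW, opW, HW.opc_comp HR hs hg, HU.opc_comp HW' hs hg]
  simp only [Finset.univ_unique, Finset.sum_const, Finset.card_singleton, one_smul]
  simp only [mul_assoc] at key ⊢
  exact key

variable [NeZero N] {A : Type*} [CommRing A] [IsDomain A] [CharZero A]
  {g : CuspForm (Gamma0 N) 2} {φ : integralClosure ℤ ℂ →+* A} {χ : Gamma0 N →* Multiplicative A}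

/-- `w_{q^(r+2)} χ` as a function -/
theorem NewChar.trace_WR (h : NewChar g φ χ) (hg : g.IsNewform) (hq : q.Prime)
    (hN : N = q ^ (r + 2) * K) {w y : ℤ} (hb : (q ^ (r + 2) : ℤ) * w - K * y = 1)
    {γ : SL(2, ℤ)} (hγ : γ ∈ Gamma0 (q ^ (r + 1) * K)) :
    opc (Gamma0 (q ^ (r + 2) * K)) (R2 q (q ^ (r + 1) * K))
      (opW (q ^ (r + 2)) K w y (ofChar χ)) γ = 0 := by
  subst hN
  have hK0 : K ≠ 0 := fun h => NeZero.ne (q ^ (r + 2) * K) (by rw [h, mul_zero])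
  have hb2 : (((q ^ (r + 1) : ℕ) : ℤ)) * (q * w) - K * y = 1 := by
    push_cast
    rw [pow_succ (q : ℤ) (r + 1)] at hb
    linear_combination hb
  rw [opc_R2_WR hq hK0 hb (addOn_ofChar χ) hγ]
  have HU := corr_UR (K := K) (r := r) hq
  have HW' := corr_W (M := K) (pow_ne_zero (r + 1) hq.ne_zero) hb2
  have h0 : ∀ δ ∈ Gamma0 (q ^ (r + 1) * K),
      opc (Gamma0 (q ^ (r + 2) * K)) (Um q) (ofChar χ) δ = 0 := by
    intro δ hδ
    have h2 := h.frac.opU_zero_field hg hq (pow_e2 q r K)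
      (dvd_mul_of_dvd_left (dvd_pow_self q (Nat.succ_ne_zero r)) _) hδ
    rw [opc_frac] at h2
    exact IsFractionRing.injective A (FractionRing A) (h2.trans (map_zero _).symm)
  obtain ⟨σ, γ', hγ', e⟩ := HW'.exists_perm hγ
  rw [opW, HW'.opc_eq (HU.addOn (addOn_ofChar χ)) hγ (γ := γ') (σ := σ) hγ' e]
  exact Finset.sum_eq_zero fun x _ => h0 _ (hγ' x)

theorem inj_of_lcmR {ι : Type*} (hqM : q.Coprime M) {rr : ι → SL(2, ℤ)}
    (hr : ∀ x, rr x ∈ Gamma0 (q ^ (r + 1) * M))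
    (hinj : ∀ x y, rr x * (rr y)⁻¹ ∈ Gamma0 (q ^ (r + 2) * M) → x = y) (x y : ι)
    (h : rr x * (rr y)⁻¹ ∈ Gamma0 (q ^ (r + 2) * K)) : x = y := by
  apply hinj
  have h2 : rr x * (rr y)⁻¹ ∈ Gamma0 (q ^ (r + 1) * M) := mul_mem (hr x) (inv_mem (hr y))
  rw [mem_G0] at h h2 ⊢
  have h3 : (q ^ (r + 2) : ℤ) ∣ (rr x * (rr y)⁻¹) 1 0 :=
    dvd_trans (by push_cast; exact dvd_mul_right _ _) h
  have h4 : (M : ℤ) ∣ (rr x * (rr y)⁻¹) 1 0 :=
    dvd_trans (by push_cast; exact dvd_mul_left _ _) h2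
  have hcop : IsCoprime (q ^ (r + 2) : ℤ) (M : ℤ) :=
    (Nat.isCoprime_iff_coprime.mpr hqM).pow_left
  push_cast
  exact hcop.mul_dvd h3 h4

/-- **(T1)**: the trace to level `q^(r+1) M` of the restriction of the character to level
`q^(r+2) M`. -/
theorem NewChar.T1R (h : NewChar g φ χ) (hg : g.IsNewform) (hq : q.Prime)
    (hN : N = q ^ (r + 2) * K)
    (hKM : K ∣ M) (hqM : q.Coprime M) {N' : ℕ} (hN' : N' = q ^ (r + 2) * M) (hNN : N ∣ N')
    {B : Type*} [CommGroup B] (f : Multiplicative A →* B)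
    {ι : Type*} [Fintype ι] (hι : Fintype.card ι = q) (rr : ι → SL(2, ℤ))
    (hr : ∀ x, rr x ∈ Gamma0 (q ^ (r + 1) * M))
    (hinj : ∀ x y, rr x * (rr y)⁻¹ ∈ Gamma0 N' → x = y) {γ : SL(2, ℤ)}
    (hγ : γ ∈ Gamma0 (q ^ (r + 1) * M)) (γ' : ι → Gamma0 N') (s : ι → ι)
    (e : ∀ x, rr x * γ = (γ' x : SL(2, ℤ)) * rr (s x)) :
    ∏ x, resC hNN (f.comp χ) (γ' x) = 1 := by
  subst hN'
  have hle : Gamma0 (q ^ (r + 1) * M) ≤ Gamma0 (q ^ (r + 1) * K) :=
    Gamma0_le (mul_dvd_mul_left _ hKM)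
  have h1 := h.trace_eq_one hg hq (M := q ^ (r + 1) * K) (by rw [hN, pow_e2])
    (dvd_mul_of_dvd_left (dvd_pow_self q (Nat.succ_ne_zero r)) _) hι rr
    (fun x => hle (hr x)) (fun x y hxy => inj_of_lcmR hqM hr hinj x y (by rwa [hN] at hxy))
    (hle hγ) (fun x => inc hNN (γ' x)) s e
  have h2 : ∀ x, resC hNN (f.comp χ) (γ' x) = f (χ (inc hNN (γ' x))) := fun _ => rfl
  rw [Finset.prod_congr rfl fun x _ => h2 x, ← map_prod, h1, map_one]

/-- **(T2)**: the same for the transform under the Atkin–Lehner matrix `W_{q^(r+2)}`. -/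
theorem NewChar.T2R [NeZero (q ^ (r + 2))] [NeZero M] (h : NewChar g φ χ) (hg : g.IsNewform)
    (hq : q.Prime) (hN : N = q ^ (r + 2) * K)
    (hKM : K ∣ M) (hqM : q.Coprime M) {N' : ℕ} [NeZero N'] (hN' : N' = q ^ (r + 2) * M)
    (hNN : N ∣ N') (Bz : LG.Bez (q ^ (r + 2)) M)
    {B : Type*} [CommGroup B] (f : Multiplicative A →* B)
    {ι : Type*} [Fintype ι] (hι : Fintype.card ι = q) (rr : ι → SL(2, ℤ))
    (hr : ∀ x, rr x ∈ Gamma0 (q ^ (r + 1) * M))
    (hinj : ∀ x y, rr x * (rr y)⁻¹ ∈ Gamma0 N' → x = y) {γ : SL(2, ℤ)}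
    (hγ : γ ∈ Gamma0 (q ^ (r + 1) * M)) (γ' : ι → Gamma0 N') (s : ι → ι)
    (e : ∀ x, rr x * γ = (γ' x : SL(2, ℤ)) * rr (s x)) :
    ∏ x, Bz.wChar dvd_rfl hN' (resC hNN (f.comp χ)) (γ' x) = 1 := by
  have hle : Gamma0 (q ^ (r + 1) * M) ≤ Gamma0 (q ^ (r + 1) * K) :=
    Gamma0_le (mul_dvd_mul_left _ hKM)
  have hK0 : K ≠ 0 := fun h => NeZero.ne N (by rw [hN, h, mul_zero])
  have h1 : Bz.wChar dvd_rfl hN' (resC hNN (f.comp χ)) =
      resC hNN (f.comp (Bz.wChar hKM hN χ)) := by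
    rw [wChar_resC hNN Bz dvd_rfl hKM hN' hN, LG.Bez.wChar, LG.Bez.wChar, CosetSys.trans_comp]
  rw [h1]
  set ω := Bz.wChar hKM hN χ with hω
  obtain ⟨t, ht⟩ := id hKM
  have hM' : (M : ℤ) = K * t := by exact_mod_cast ht
  have hb : (q ^ (r + 2) : ℤ) * Bz.w - K * (t * Bz.y) = 1 := by
    have hB := Bz.det
    push_cast at hB
    rw [← hB, hM']
    ring
  have h2 : ∀ δ ∈ Gamma0 N, ofChar ω δ = opW (q ^ (r + 2)) K Bz.w (t * Bz.y) (ofChar χ) δ := by
    intro δ hδ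
    rw [ofChar_mem ω hδ]
    exact toAdd_wChar Bz ht hN χ ⟨δ, hδ⟩
  subst hN hN'
  have h3 := NewChar.trace_WR h hg hq rfl hb (hle hγ)
  have h4 : opc (Gamma0 (q ^ (r + 2) * K)) (R2 q (q ^ (r + 1) * K)) (ofChar ω) γ = 0 := by
    rw [← h3]
    exact (corr_R2R hq hK0).opc_congr (addOn_ofChar ω) h2 (hle hγ)
  have e2 : q ^ (r + 2) * K = q * (q ^ (r + 1) * K) := pow_e2 q r K
  have h5 : Corr (Gamma0 (q ^ (r + 2) * K)) (Gamma0 (q ^ (r + 1) * K))
        (fun x => (rr x : Mat)) ∧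
      opc (Gamma0 (q ^ (r + 2) * K)) (fun x => (rr x : Mat)) (ofChar ω) γ =
        opc (Gamma0 (q ^ (r + 2) * K)) (R2 q (q ^ (r + 1) * K)) (ofChar ω) γ := by
    have h6 := addOn_ofChar ω
    have h7 := inj_of_lcmR (K := K) hqM hr hinj
    generalize ofChar ω = c at h6
    rw [e2] at h6 h7 ⊢
    exact opc_reps hq (dvd_mul_of_dvd_left (dvd_pow_self q (Nat.succ_ne_zero r)) _)
      (mul_ne_zero (pow_ne_zero _ hq.ne_zero) hK0) hι rr
      (fun x => hle (hr x)) h7 h6 (hle hγ)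
  obtain ⟨H, h5⟩ := h5
  have hmat : ∀ x, (rr x : Mat) * (γ : Mat) =
      (((inc hNN (γ' x) : Gamma0 (q ^ (r + 2) * K)) : SL(2, ℤ)) : Mat) * (rr (s x) : Mat) := by
    intro x
    rw [coe_inc, ← sl_coe_mul, ← sl_coe_mul, e x]
  rw [h4, H.opc_eq (addOn_ofChar ω) (hle hγ)
    (γ := fun x => ((inc hNN (γ' x) : Gamma0 (q ^ (r + 2) * K)) :
    SL(2, ℤ))) (σ := s) (fun x => (inc hNN (γ' x)).2) hmat] at h5
  simp only [ofChar_coe] at h5
  rw [← toAdd_prod] at h5
  have h6 : ∏ x, ω (inc hNN (γ' x)) = 1 := h5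
  have h7 : ∀ x, resC hNN (f.comp ω) (γ' x) = f (ω (inc hNN (γ' x))) := fun _ => rfl
  rw [Finset.prod_congr rfl fun x _ => h7 x, ← map_prod, h6, map_one]


theorem pow_e3 (q r M : ℕ) : q * (q ^ r * M) = q ^ (r + 1) * M := by
  rw [pow_succ' q r, mul_assoc]

theorem pow_e4 (q r M : ℕ) : q ^ 2 * (q ^ r * M) = q ^ (r + 2) * M := by
  rw [pow_add]; ring

theorem al_memR (q r M : ℕ) (c : ℤ) : LG.al q (q ^ r * M) c ∈ Gamma0 (q ^ (r + 1) * M) := by
  have h := LG.al_mem q (q ^ r * M) c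
  rwa [pow_e3] at h

theorem al_injR {q r M : ℕ} (hM : M ≠ 0) (hq : q ≠ 0) {a b : Fin q}
    (h : LG.al q (q ^ r * M) ((a : ℕ) : ℤ) * (LG.al q (q ^ r * M) ((b : ℕ) : ℤ))⁻¹ ∈
      Gamma0 (q ^ (r + 2) * M)) : a = b :=
  LG.al_inj (M := q ^ r * M) (mul_ne_zero (pow_ne_zero _ hq) hM) hq (by rwa [pow_e4])

/-- the trivial transfer of the characters attached to newforms, `q ^ (r + 2)` -/
theorem trOne_oCharR {N : ℕ} [NeZero N] {g : CuspForm (Gamma0 N) 2} (hg : g.IsNewform)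
    {S : Finset ℕ}
    {O : Type} [CommRing O] [IsDomain O] [CharZero O]
    {v : LatM N (↑S : Set ℕ) →+ O}
    {φ : integralClosure ℤ ℂ →+* AlgebraicClosure (FractionRing O)}
    {v₀ : LatM N ∅ →+ AlgebraicClosure (FractionRing O)}
    {f₀ : AlgebraicClosure (FractionRing O) →+ FractionRing O}
    (hNC : NewChar g φ (vChar v₀))
    (hchar : (AddMonoidHom.toMultiplicative
        (algebraMap O (FractionRing O)).toAddMonoidHom).comp (oChar v) =
        (AddMonoidHom.toMultiplicative f₀).comp (vChar v₀))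
    {q K M N' r : ℕ} [NeZero q] [NeZero M] [NeZero N'] (hq : q.Prime)
    (hN : N = q ^ (r + 2) * K)
    (hKM : K ∣ M) (hqM : ¬ q ∣ M) (hN' : N' = q ^ (r + 2) * M) (hNN : N ∣ N')
    (ψ : Multiplicative O →* ℂˣ) :
    LG.TrOne q (q ^ r * M) (resC hNN (ψ.comp (oChar v))) := by
  intro γ hγ γ' s hs
  rw [pow_e3] at hγ
  have hinj : Function.Injective (algebraMap O (FractionRing O)) :=
    IsFractionRing.injective O (FractionRing O)
  have h1 : ∏ c, resC hNN (oChar v) (γ' c) = 1 := by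
    have h2 := NewChar.T1R hNC hg hq hN hKM ((Nat.Prime.coprime_iff_not_dvd hq).mpr hqM) hN' hNN
      (AddMonoidHom.toMultiplicative f₀) (Fintype.card_fin q)
      (fun c : Fin q => LG.al q (q ^ r * M) ((c : ℕ) : ℤ)) (fun c => al_memR q r M _)
      (fun x y hxy => al_injR (NeZero.ne M) (NeZero.ne q) (by rwa [hN'] at hxy)) hγ γ' s hs
    rw [← hchar] at h2
    have h3 : (AddMonoidHom.toMultiplicative (algebraMap O (FractionRing O)).toAddMonoidHom)
        (∏ c, resC hNN (oChar v) (γ' c)) = 1 := by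
      rw [map_prod]
      exact h2
    have h5 : (algebraMap O (FractionRing O)) (toAdd (∏ c, resC hNN (oChar v) (γ' c))) =
        algebraMap O (FractionRing O) 0 := Eq.trans h3 (map_zero (algebraMap O _)).symm
    exact hinj h5
  have h4 : ∀ c, resC hNN (ψ.comp (oChar v)) (γ' c) = ψ (resC hNN (oChar v) (γ' c)) :=
    fun _ => rfl
  rw [Finset.prod_congr rfl fun c _ => h4 c, ← map_prod, h1, map_one]

/-- the trivial transfer of the transforms by `W_{q^(r+2)}` of the characters attached to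
newforms -/
theorem trOne_w_oCharR {N : ℕ} [NeZero N] {g : CuspForm (Gamma0 N) 2} (hg : g.IsNewform)
    {S : Finset ℕ}
    {O : Type} [CommRing O] [IsDomain O] [CharZero O]
    {v : LatM N (↑S : Set ℕ) →+ O}
    {φ : integralClosure ℤ ℂ →+* AlgebraicClosure (FractionRing O)}
    {v₀ : LatM N ∅ →+ AlgebraicClosure (FractionRing O)}
    {f₀ : AlgebraicClosure (FractionRing O) →+ FractionRing O}
    (hNC : NewChar g φ (vChar v₀))
    (hchar : (AddMonoidHom.toMultiplicative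
        (algebraMap O (FractionRing O)).toAddMonoidHom).comp (oChar v) =
        (AddMonoidHom.toMultiplicative f₀).comp (vChar v₀))
    {q K M N' r : ℕ} [NeZero q] [NeZero M] [NeZero N'] (hq : q.Prime)
    (hN : N = q ^ (r + 2) * K)
    (hKM : K ∣ M) (hqM : ¬ q ∣ M) (hN' : N' = q ^ (r + 2) * M) (hNN : N ∣ N')
    (B : LG.Bez (q ^ (r + 2)) M)
    (ψ : Multiplicative O →* ℂˣ) :
    LG.TrOne q (q ^ r * M) (B.wChar dvd_rfl hN' (resC hNN (ψ.comp (oChar v)))) := by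
  intro γ hγ γ' s hs
  rw [pow_e3] at hγ
  have hinj : Function.Injective (algebraMap O (FractionRing O)) :=
    IsFractionRing.injective O (FractionRing O)
  have hcomp : ∀ {B₁ B₂ : Type} [CommGroup B₁] [CommGroup B₂] (f : B₁ →* B₂)
      (χ : Gamma0 N →* B₁), B.wChar dvd_rfl hN' (resC hNN (f.comp χ)) =
        f.comp (B.wChar dvd_rfl hN' (resC hNN χ)) := by
    intro B₁ B₂ _ _ f χ
    rw [LG.Bez.wChar, LG.Bez.wChar, ← CosetSys.trans_comp]
    rfl
  have h1 : ∏ c, B.wChar dvd_rfl hN' (resC hNN (oChar v)) (γ' c) = 1 := by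
    have h2 := NewChar.T2R hNC hg hq hN hKM ((Nat.Prime.coprime_iff_not_dvd hq).mpr hqM) hN' hNN B
      (AddMonoidHom.toMultiplicative f₀) (Fintype.card_fin q)
      (fun c : Fin q => LG.al q (q ^ r * M) ((c : ℕ) : ℤ)) (fun c => al_memR q r M _)
      (fun x y hxy => al_injR (NeZero.ne M) (NeZero.ne q) (by rwa [hN'] at hxy)) hγ γ' s hs
    rw [← hchar, hcomp] at h2
    have h3 : (AddMonoidHom.toMultiplicative (algebraMap O (FractionRing O)).toAddMonoidHom)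
        (∏ c, B.wChar dvd_rfl hN' (resC hNN (oChar v)) (γ' c)) = 1 := by
      rw [map_prod]
      exact h2
    have h5 : (algebraMap O (FractionRing O))
        (toAdd (∏ c, B.wChar dvd_rfl hN' (resC hNN (oChar v)) (γ' c))) =
        algebraMap O (FractionRing O) 0 := Eq.trans h3 (map_zero (algebraMap O _)).symm
    exact hinj h5
  rw [hcomp]
  have h4 : ∀ c, (ψ.comp (B.wChar dvd_rfl hN' (resC hNN (oChar v)))) (γ' c) =
      ψ (B.wChar dvd_rfl hN' (resC hNN (oChar v)) (γ' c)) := fun _ => rfl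
  rw [Finset.prod_congr rfl fun c _ => h4 c, ← map_prod, h1, map_one]


end Fermat.Agent.SF
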