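import Fermat.Agent.SF.Unip
import Fermat.Agent.SF.CarR
import Fermat.Agent.SF.WR
import Fermat.Agent.SF.NewR

set_option autoImplicit false
set_option maxHeartbeats 400000

/-!
# No newform with unipotent inertia at `q` has level divisible by `q ^ 2`
-/

open IsLocalRing CongruenceSubgroup Matrix.SpecialLinearGroup Polynomial
open scoped MatrixGroups

noncomputable section

namespace Fermat.Agent.SF

open Fermat.Agent.LG Fermat.Agent.ESCore Fermat.Agent.ESCore.ModP Fermat.Agent.ESCore.Tower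
  Fermat.Agent.ESCore.Univ Fermat.Agent.UnivDef Fermat.Agent.NF

section Gd

variable {q M N r : ℕ} [NeZero q] [NeZero M] [NeZero N]

/-- the characters with trivial transfers -/
def gdR (B : Bez (q ^ (r + 2)) M) (hN : N = q ^ (r + 2) * M) (m : ℕ) : Subgroup (XG N m) where
  carrier := {χ | IsPar χ.1 ∧ TrOne q (q ^ r * M) χ.1 ∧
    TrOne q (q ^ r * M) (B.wChar dvd_rfl hN χ.1)}
  mul_mem' := by
    rintro χ ψ ⟨h1, h2, h3⟩ ⟨h4, h5, h6⟩
    refine ⟨h1.mul h4, h2.mul h5, ?_⟩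
    have h7 := h3.mul h6
    rw [← B.wChar_mul] at h7
    exact h7
  one_mem' := by
    refine ⟨IsPar.one, TrOne.one, ?_⟩
    have h7 : TrOne q (q ^ r * M) (1 : Gamma0 N →* ℂˣ) := TrOne.one
    rw [← B.wChar_one dvd_rfl hN] at h7
    exact h7
  inv_mem' := by
    rintro χ ⟨h1, h2, h3⟩
    refine ⟨h1.inv, h2.inv, ?_⟩
    have h4 : B.wChar dvd_rfl hN (χ⁻¹).1 = (B.wChar dvd_rfl hN χ.1)⁻¹ := by
      rw [eq_inv_iff_mul_eq_one, ← B.wChar_mul]
      have h5 : (χ⁻¹).1 * χ.1 = 1 := congrArg Subtype.val (inv_mul_cancel χ)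
      rw [h5, B.wChar_one]
    change TrOne q (q ^ r * M) (B.wChar dvd_rfl hN (χ⁻¹).1)
    rw [h4]
    exact h3.inv

theorem noEll_R (hlev : GoodLev q M) (hN : N = q ^ (r + 2) * M) : NoEll N := by
  rcases hlev with ⟨-, h⟩ | ⟨-, h⟩
  · exact noEll_of_four_dvd (hN ▸ h.trans (dvd_mul_left _ _))
  · exact noEll_of_nine_dvd (hN ▸ h.trans (dvd_mul_left _ _))

theorem gdR_galX (B : Bez (q ^ (r + 2)) M) (hq : q.Prime) (hqM : ¬ q ∣ M) (hlev : GoodLev q M)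
    (hN : N = q ^ (r + 2) * M) {m : ℕ} (hm : 0 < m) (σ : GQ) {χ : XG N m} (hχ : χ ∈ gdR B hN m) :
    galX N hm σ χ ∈ gdR B hN m :=
  ⟨isPar_galX (noEll_R hlev hN) hm σ χ hχ.1,
    trOneR_galX (noEll_R hlev hN) hq hqM hN hm σ χ hχ.1 hχ.2.1,
    trOneR_w_galX B (noEll_R hlev hN) hq hqM hN hm σ χ hχ.1 hχ.2.2⟩

end Gd

section Rep

variable {N : ℕ} [NeZero N] {S : Finset ℕ}

/-- **No newform with unipotent inertia at `q` has level divisible by `q ^ 2`.** -/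
theorem false_of_fac (hCAR : CARProp) (hCARR : CARRProp) {g : CuspForm (Gamma0 N) 2}
    (hg : g.IsNewform) {p : ℕ} (hp : p.Prime)
    (hpS : p ∈ S) (hNS : ∀ q : ℕ, q.Prime → q ∣ N → q ∈ S)
    (hKL : ∀ l : ℕ, l.Prime → ¬ l ∣ N → l ≠ p → ∀ B : ValuationSubring Qb,
      B.LiesOverPrime l → ∀ n, KLProp N (p ^ n) B)
    {O : Type} [CommRing O] [IsDomain O] [IsDiscreteValuationRing O]
    [Finite (ResidueField O)]
    [CharZero O] (hpO : (p : O) ∈ maximalIdeal O)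
    (chi : CuspForm.heckeAlgebra N 2 (↑S : Set ℕ) →+* ℂ)
    (hchi : ∀ (l : ℕ) (hl : l.Prime) (hlN : ¬ l ∣ N) (hlS : l ∉ (↑S : Set ℕ)),
      chi (CuspForm.heckeAlgebra.T hl hlN hlS) = ModularFormClass.qCoeff g l)
    (iota : chi.range →+* O)
    {c : ℕ} {t : GQ → O}
    (ht : ∀ σ, ∀ f ∈ algP (TxS N S p) (TtS N S), ∀ n m, n + c ≤ m →
        f.1 m = ESCore.trS (rhoT N hp.pos m) (chiT N hp.pos m) σ →
        t σ - (iota.comp chi.rangeRestrict) f.2 ∈ Ideal.span {(p : O) ^ n})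
    {q : ℕ} (hq : q.Prime) (hqp : q ≠ p) {A : ValuationSubring Qb} (hA : A.LiesOverPrime q)
    (hIt : ∀ σ ∈ A.inertiaSubgroupIn ℚ, t σ = 2)
    {r : ℕ} (hqN : N.factorization q = r + 2) : False := by
  have hIχ : ∀ σ ∈ A.inertiaSubgroupIn ℚ, ∀ m, chiT N hp.pos m σ = 1 := by
    intro σ hσ m
    haveI : NeZero (p ^ m) := ⟨(pow_pos hp.pos m).ne'⟩
    change cycE N (p ^ m) σ = 1
    rw [cycE_of_eq (k := 1) (by
      rw [cyc_inertia hA hq hσ (fun h => hqp ((Nat.prime_dvd_prime_iff_eq hq hp).mp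
        (hq.dvd_of_dvd_pow h))), Units.val_one, Int.cast_one]), Int.cast_one]
  -- the level
  obtain ⟨K, hK, hqK⟩ : ∃ K, N = q ^ (r + 2) * K ∧ ¬ q ∣ K := by
    refine ⟨N / q ^ N.factorization q, ?_, Nat.not_dvd_ordCompl hq (NeZero.ne N)⟩
    have h1 := Nat.ordProj_mul_ordCompl_eq_self N q
    rw [hqN] at h1 ⊢
    exact h1.symm
  have hK0 : K ≠ 0 := by
    rintro rfl
    exact NeZero.ne N (by rw [hK, mul_zero])
  haveI hq0 : NeZero q := ⟨hq.ne_zero⟩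
  haveI hM : NeZero (auxLev q * K) := ⟨mul_ne_zero (auxLev_pos q).ne' hK0⟩
  haveI hN' : NeZero (q ^ (r + 2) * (auxLev q * K)) :=
    ⟨mul_ne_zero (pow_ne_zero _ hq.ne_zero) hM.out⟩
  have hqM : ¬ q ∣ auxLev q * K := by
    intro h
    rcases hq.dvd_mul.mp h with h | h
    · exact not_dvd_auxLev hq h
    · exact hqK h
  have hlev : GoodLev q (auxLev q * K) := goodLev_aux q K
  have hNN : N ∣ q ^ (r + 2) * (auxLev q * K) := ⟨auxLev q, by rw [hK]; ring⟩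
  obtain ⟨B⟩ := nonempty_bez (q := q ^ (r + 2)) (M := auxLev q * K)
    (((Nat.Prime.coprime_iff_not_dvd hq).mpr hqM).pow_left _)
  have hpm : ∀ m, ¬ q ∣ p ^ m := fun m h =>
    hqp ((Nat.prime_dvd_prime_iff_eq hq hp).mp (hq.dvd_of_dvd_pow h))
  -- the vector
  obtain ⟨v, φ, v₀, f₀, hv, hvT, hNC, hchar⟩ := exists_intVec_gen hg chi
    (chi_eq hg.1 hNS chi hchi) iota
  rcases Nat.eq_zero_or_pos r with hr | hr
  · subst hr
    refine false_of_car' (N' := q ^ (0 + 2) * (auxLev q * K)) hp hpS hNS hKL hNN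
      (I := A.inertiaSubgroupIn ℚ) hpO (π := iota.comp chi.rangeRestrict) hv hvT ht hIt hIχ
      (E := (q ^ 2 - 1) ^ 2) ?_ (fun m => gd (M := auxLev q * K) B rfl (p ^ m)) ?_ ?_ ?_
    · have h2 : 2 ≤ q := hq.two_le
      have h3 : 4 ≤ q ^ 2 := by nlinarith
      exact pow_ne_zero 2 (by omega)
    · intro m σ χ hχ
      exact gd_galX B hq hqM hlev rfl _ σ hχ
    · intro m ψ hψ
      refine ⟨(parC_lat _).res hNN, ?_, ?_⟩
      · exact trOne_oChar hg hNC hchar hq hK (dvd_mul_left _ _) hqM rfl hNN ψ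
      · exact trOne_w_oChar hg hNC hchar hq hK (dvd_mul_left _ _) hqM rfl hNN B ψ
    · intro m χ hχ hfix
      exact hCAR hq hqM hlev rfl (pow_pos hp.pos m) (hpm m) hA B χ
        hχ.1 hfix hχ.2.1 hχ.2.2
  · obtain ⟨E, hE, hCARE⟩ := hCARR hq hqM hlev hr rfl hA B
    refine false_of_car' (N' := q ^ (r + 2) * (auxLev q * K)) hp hpS hNS hKL hNN
      (I := A.inertiaSubgroupIn ℚ) hpO (π := iota.comp chi.rangeRestrict) hv hvT ht hIt hIχ
      (E := E) hE (fun m => gdR (M := auxLev q * K) B rfl (p ^ m)) ?_ ?_ ?_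
    · intro m σ χ hχ
      exact gdR_galX B hq hqM hlev rfl _ σ hχ
    · intro m ψ hψ
      refine ⟨(parC_lat _).res hNN, ?_, ?_⟩
      · exact trOne_oCharR hg hNC hchar hq hK (dvd_mul_left _ _) hqM rfl hNN ψ
      · exact trOne_w_oCharR hg hNC hchar hq hK (dvd_mul_left _ _) hqM rfl hNN B ψ
    · intro m χ hχ hfix
      exact hCARE (pow_pos hp.pos m) (hpm m) χ hχ.1 hfix hχ.2.1 hχ.2.2

end Rep

end Fermat.Agent.SF
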