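import Mathlib
import Fermat.Agent.SF.Asm
import Fermat.Agent.S43
import Fermat.Agent.S44
import Fermat.Agent.S05
import Fermat.Agent.S08

set_option autoImplicit false

open WeierstrassCurve WeierstrassCurve.Affine WeierstrassCurve.Affine.Point
open CuspForm ModularFormClass UpperHalfPlane
open FreyPackage

namespace Fermat.Agent.SF

theorem lower_to_two (P : FreyPackage)
    (hirr : GaloisRepIsIrreducible (K := AlgebraicClosure ℚ) ℚ P.freyCurve P.p) (N : ℕ)
    (hc : P.IsConductorLevel N) (hm : P.ModularRepOfLevel N) :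
    ∃ M : ℕ, M ∣ 2 ∧ P.ModularRepOfLevel M := by
  induction N using Nat.strong_induction_on with
  | _ N ih =>
  have hlt : ∀ {q M : ℕ}, q ∣ N → M ∣ N → ¬ q ∣ M → M < N ∧ 0 < M := by
    intro q M hq hM hqM
    have h1 := Nat.le_of_dvd hc.pos hM
    refine ⟨lt_of_le_of_ne h1 ?_, Nat.pos_of_dvd_of_pos hM hc.pos⟩
    rintro rfl
    exact hqM hq
  by_cases h : ∃ q : ℕ, q.Prime ∧ q ≠ 2 ∧ q ∣ N
  · obtain ⟨q, hq, hq2, hqN⟩ := h
    by_cases hqp : q = P.p
    · subst hqp
      obtain ⟨M, hM, hpM, hmM⟩ := Fermat.Agent.S44.result P hc hqN hirr hm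
      obtain ⟨h1, h2⟩ := hlt hqN hM hpM
      exact ih M h1 (hc.of_dvd hM h2) hmM
    · obtain ⟨M, hM, hpM, hmM⟩ := Fermat.Agent.S43.result P hc hq hq2 hqp hqN hirr hm
        (Fermat.Agent.S05.result P hq hq2 hqp)
      obtain ⟨h1, h2⟩ := hlt hqN hM hpM
      exact ih M h1 (hc.of_dvd hM h2) hmM
  · refine ⟨N, ?_, hm⟩
    have h2 : ∀ q : ℕ, q.Prime → q ∣ N → q = 2 := by
      intro q hq hqN
      by_contra hne
      exact h ⟨q, hq, hne, hqN⟩
    rw [← Nat.prod_primeFactors_of_squarefree hc.squarefree]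
    have h3 : N.primeFactors ⊆ {2} := by
      intro q hq
      rw [Nat.mem_primeFactors] at hq
      rw [Finset.mem_singleton]
      exact h2 q hq.1 hq.2.1
    have h4 := Finset.prod_dvd_prod_of_subset _ _ (fun q : ℕ => q) h3
    simpa using h4

theorem s45_of_carr (hC : CARRProp) (P : FreyPackage) (hmod : P.freyCurve.IsModular)
    (hirr : GaloisRepIsIrreducible (K := AlgebraicClosure ℚ) ℚ P.freyCurve P.p) :
    ∃ f : CuspForm (CongruenceSubgroup.Gamma0 2) 2, f ≠ 0 := by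
  obtain ⟨N, hc, hm⟩ := exists_conductorLevel hC P hmod
  obtain ⟨M, hM, hmM⟩ := lower_to_two P hirr N hc hm
  obtain ⟨f, W, 𝔪, hf, -⟩ := hmM
  rcases (Nat.dvd_prime Nat.prime_two).mp hM with rfl | rfl
  · exact absurd (Fermat.Agent.S08.result f) hf.ne_zero
  · exact ⟨f, hf.ne_zero⟩

end Fermat.Agent.SF
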