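import Fermat.Agent.SF.Gd
import Fermat.Agent.RT.S58C
import Fermat.Agent.CA.Car

set_option autoImplicit false
set_option maxHeartbeats 400000
set_option linter.style.haveILetI false
set_option linter.unusedSectionVars false

/-!
# Newforms corresponding to semistable curves have squarefree level
-/

noncomputable section

open IsLocalRing CongruenceSubgroup Matrix.SpecialLinearGroup ModularFormClass
open Fermat.Agent.ESCore Fermat.Agent.EC.Tate Fermat.Agent.UnivDef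

namespace Fermat.Agent.SF

open Fermat.Agent.RT Fermat.Agent.LG Fermat.Agent.ESCore.ModP Fermat.Agent.ESCore.Tower
  Fermat.Agent.ESCore.Univ Fermat.Agent.NF Fermat.Agent.RT.S58

variable {W : WeierstrassCurve ℤ} {M N : ℕ} [NeZero M] {g : CuspForm (Gamma0 M) 2}

/-- **The level is squarefree.** -/
theorem sq_not_dvd (hCARR : CARRProp) (hΔ : W.Δ ≠ 0) (hss : W.IsSemistableModel)
    (hg : g.IsNewform) (hMN : M ∣ N) (hN : N ≠ 0)
    (hag : ∀ l : ℕ, l.Prime → ¬ l ∣ N → W.IsGoodPrimeFor l ∧ qCoeff g l = (W.apOfModel l : ℂ))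
    {q : ℕ} (hq : q.Prime) : ¬ q ^ 2 ∣ M := by
  intro hq2
  have hM0 : M ≠ 0 := NeZero.ne M
  obtain ⟨r, hfac⟩ : ∃ r, M.factorization q = r + 2 := by
    have h1 := (hq.pow_dvd_iff_le_factorization hM0).mp hq2
    exact ⟨M.factorization q - 2, by omega⟩
  obtain ⟨p, hqp, hp2, hp⟩ : ∃ p : ℕ, q ≠ p ∧ p ≠ 2 ∧ p.Prime := by
    by_cases h3 : q = 3
    · exact ⟨5, by omega, by omega, Nat.prime_five⟩
    · exact ⟨3, h3, by omega, Nat.prime_three⟩
  haveI hpf : Fact p.Prime := ⟨hp⟩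
  let S : Finset ℕ := insert p M.primeFactors
  have hpS : p ∈ S := Finset.mem_insert_self _ _
  have hMS : ∀ l : ℕ, l.Prime → l ∣ M → l ∈ S := fun l hl hlM =>
    Finset.mem_insert_of_mem (Nat.mem_primeFactors.mpr ⟨hl, hlM, hM0⟩)
  let R : Subring ℂ := (eigenHomC hg.1 (↑S : Set ℕ)).range
  haveI hfin : Module.Finite ℤ (CuspForm.heckeAlgebra M 2 (↑S : Set ℕ)) :=
    Fermat.Agent.ES.moduleFinite_heckeAlgebra 2 (↑S : Set ℕ)
  haveI hRf : Module.Finite ℤ R := by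
    refine Module.Finite.of_surjective
      ((eigenHomC hg.1 (↑S : Set ℕ)).rangeRestrict.toIntAlgHom).toLinearMap ?_
    exact (eigenHomC hg.1 (↑S : Set ℕ)).rangeRestrict_surjective
  obtain ⟨O', _, _, _, _, _, _, _, _, _, hinj, ⟨iota⟩⟩ := exists_dvr_of_finite R p
  have hpO : (p : O') ∈ maximalIdeal O' := by
    rw [← map_natCast (algebraMap ℤ_[p] O')]
    exact map_nonunit (algebraMap ℤ_[p] O') _ (p_mem p)
  have hKL : ∀ l : ℕ, l.Prime → ¬ l ∣ M → l ≠ p → ∀ B : ValuationSubring Qb,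
      B.LiesOverPrime l → ∀ n, KLProp M (p ^ n) B := fun l hl hlN hlp B hB n =>
    Fermat.Agent.KL.klProp (pow_pos hp.pos n) hl hlN
      (fun h => hlp ((Nat.prime_dvd_prime_iff_eq hl hp).mp (hl.dvd_of_dvd_pow h))) hB
  obtain ⟨c, t, ε, hps, h1, h1', h2, h3, -, h4⟩ := exists_pseudo_full hp hpS hMS hKL hpO
    (iota.comp (eigenHomC hg.1 (↑S : Set ℕ)).rangeRestrict)
  obtain ⟨ρ, h5, -⟩ := exists_adic_rep hpO hps (fun n => by
    obtain ⟨L, hL, h⟩ := h3 n
    exact ⟨L, hL, fun σ hσ => (h σ hσ).1⟩) h4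
  obtain ⟨β⟩ := GaloisRepAdic.exists_basis ρ
  obtain ⟨B, -⟩ := exists_tb (p := p) hΔ (torsBasis p W hΔ)
  obtain ⟨χ, hχ⟩ := exists_isCyc (𝒪 := ℤ_[p]) hp (p_mem p)
  have hps' := (tateTr_cycPs B (𝒪 := ℤ_[p]) hΔ (p_mem p) hχ).map (Algebra.ofId ℤ_[p] O')
  have h20 : ∀ y : O', 2 * y = 0 → y = 0 := fun y hy =>
    (mul_eq_zero.mp hy).resolve_left two_ne_zero
  have htr : ∀ σ, (matOf ρ β σ).trace = tateTr B O' σ := fun σ =>
    (hps'.trace_det hp hpO (p_mem p) hχ h20 ρ (insert p N.primeFactors) (by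
      intro l hl hlS A hA σ hσ
      rw [Finset.mem_insert, not_or] at hlS
      have hlN : ¬ l ∣ N := fun h => hlS.2 (Nat.mem_primeFactors.mpr ⟨hl, h, hN⟩)
      have hlM : ¬ l ∣ M := fun h => hlN (h.trans hMN)
      have hlS' : l ∉ (↑S : Set ℕ) := by
        intro h
        rcases Finset.mem_insert.mp h with h | h
        · exact hlS.1 h
        · exact hlM (Nat.dvd_of_mem_primeFactors h)
      obtain ⟨hgl, hal⟩ := hag l hl hlN
      obtain ⟨h7, h8⟩ := h2 l hl hlM hlS' A hA σ hσ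
      rw [h5 σ, h7, h8, RingHom.comp_apply, iota_T hg.1 iota hl hlM hlS' hal]
      have h9 : (Algebra.ofId ℤ_[p] O') (tateTr B ℤ_[p] σ) = tateTr B O' σ := rfl
      rw [h9, tateTr_frob B hl hlS.1 hgl hA hσ]) β σ).1
  have htt : ∀ σ, t σ = tateTr B O' σ := by
    intro σ
    rw [← htr σ]
    exact (trace_of_charpoly ρ β (a := t σ) (d := (ε σ : O')) (h5 σ)).symm
  obtain ⟨A, hA⟩ := Fermat.Agent.GaloisBasics.exists_liesOverPrime hq
  refine false_of_fac Fermat.Agent.CA.car_prop hCARR hg hp hpS hMS hKL hpO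
    (eigenHomC hg.1 (↑S : Set ℕ)) (fun l hl hlM hlS => eigenHom_T hg.1 hl hlM hlS) iota h1 hq hqp
    hA (fun σ hσ => ?_) hfac
  rw [htt, tateTr_unip B hΔ hss hp2 hq hqp hA hσ]

end Fermat.Agent.SF
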