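import Fermat.Agent.LG.R36

set_option autoImplicit false
set_option maxHeartbeats 400000

/-!
# Unipotent inertia: Kolchin's argument
-/

open IsLocalRing CongruenceSubgroup Matrix.SpecialLinearGroup Polynomial
open scoped MatrixGroups

noncomputable section

namespace Fermat.Agent.SF

open Fermat.Agent.LG Fermat.Agent.ESCore Fermat.Agent.ESCore.ModP Fermat.Agent.ESCore.Tower
  Fermat.Agent.ESCore.Univ Fermat.Agent.UnivDef

section Ring

variable {R : Type*} [Ring R]

theorem kol {a b : R} (ha : a * a = 0) (hb : b * b = 0)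
    (hab : (a * b + a + b) * (a * b + a + b) = 0) : a * b + b * a = 0 := by
  have e : (a * b + a + b) * (a * b + a + b) = a * b * a * b + a * b * a + a * (b * b) +
      (a * a) * b + a * a + a * b + b * a * b + b * a + b * b + (a * (b * b) - a * (b * b)) := by
    noncomm_ring
  have e0 : a * b * a * b + a * b * a + a * b + b * a * b + b * a = 0 := by
    rw [← hab, e, ha, hb]
    noncomm_ring
  have h1 : a * b * a * b + a * b * a = 0 := by
    have h := congrArg (fun x => a * x) e0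
    simp only [mul_zero] at h
    rw [← h]
    have e1 : a * (a * b * a * b + a * b * a + a * b + b * a * b + b * a) =
      (a * a) * b * a * b + (a * a) * b * a + (a * a) * b + a * b * a * b + a * b * a := by
      noncomm_ring
    rw [e1, ha]
    noncomm_ring
  have h2 : a * b * a * b + b * a * b = 0 := by
    have h := congrArg (fun x => x * b) e0
    simp only [zero_mul] at h
    rw [← h]
    have e1 : (a * b * a * b + a * b * a + a * b + b * a * b + b * a) * b =
      a * b * a * (b * b) + a * b * a * b + a * (b * b) + b * a * (b * b) + b * a * b := by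
      noncomm_ring
    rw [e1, hb]
    noncomm_ring
  have h3 : a * b + b * a = a * b * a * b := by
    have h4 : a * b + b * a = (a * b * a * b + a * b * a + a * b + b * a * b + b * a) -
      (a * b * a * b + a * b * a) - (a * b * a * b + b * a * b) + a * b * a * b := by abel
    rw [h4, e0, h1, h2]
    abel
  have h5 : a * b * a = 0 := by
    have h6 : a * (a * b + b * a) = a * (a * b * a * b) := by rw [h3]
    have e1 : a * (a * b + b * a) = (a * a) * b + a * b * a := by noncomm_ring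
    have e2 : a * (a * b * a * b) = (a * a) * b * a * b := by noncomm_ring
    rw [e1, e2, ha] at h6
    simpa using h6
  rw [h3, h5, zero_mul]

/-- **Kolchin.** -/
theorem kol3 {I : Type*} [Group I] (P : I →* R) (h : ∀ σ, (P σ - 1) * (P σ - 1) = 0)
    (σ τ υ : I) : 2 * ((P σ - 1) * (P τ - 1) * (P υ - 1)) = 0 := by
  have key : ∀ σ τ : I, (P σ - 1) * (P τ - 1) + (P τ - 1) * (P σ - 1) = 0 := by
    intro σ τ
    refine kol (h σ) (h τ) ?_
    have h1 := h (σ * τ)
    have e : P (σ * τ) - 1 = (P σ - 1) * (P τ - 1) + (P σ - 1) + (P τ - 1) := by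
      rw [map_mul]
      noncomm_ring
    rwa [e] at h1
  have k1 := key σ τ
  have k2 := key σ υ
  have k3 := key σ (τ * υ)
  have e : P (τ * υ) - 1 = (P τ - 1) * (P υ - 1) + (P τ - 1) + (P υ - 1) := by
    rw [map_mul]
    noncomm_ring
  rw [e] at k3
  generalize P σ - 1 = a at k1 k2 k3 ⊢
  generalize P τ - 1 = b at k1 k2 k3 ⊢
  generalize P υ - 1 = c at k1 k2 k3 ⊢
  have e1 : a * b * c + b * c * a = 0 := by
    have e2 : a * b * c + b * c * a = (a * (b * c + b + c) + (b * c + b + c) * a) -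
      (a * b + b * a) - (a * c + c * a) := by noncomm_ring
    rw [e2, k3, k1, k2]
    abel
  have e3 : b * c * a = a * b * c := by
    have e4 : b * c * a = b * (a * c + c * a) - (a * b + b * a) * c + a * b * c := by
      noncomm_ring
    rw [e4, k2, k1]
    simp
  rw [e3] at e1
  rw [two_mul]
  exact e1

end Ring

section Grp

/-- **Kolchin's argument with bounded denominators.** -/
theorem kolchin {G : Type*} [Group G] {V : Type*} [AddCommGroup V] (P : G →* Module.End ℤ V)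
    (I : Subgroup G) (U : AddSubgroup V) (hU : ∀ σ, ∀ x ∈ U, P σ x ∈ U)
    (h2 : ∀ σ ∈ I, ∀ x ∈ U, P σ (P σ x) - P σ x - (P σ x - x) = 0) {E : ℕ}
    (hCAR : ∀ x ∈ U, (∀ σ ∈ I, P σ x = x) → E • x = 0) {x : V} (hx : x ∈ U) :
    (2 * E * E * E) • x = 0 := by
  let P' : I →* Module.End ℤ U :=
    { toFun := fun σ =>
        ({ toFun := fun y => ⟨P σ y, hU σ y y.2⟩
           map_zero' := Subtype.ext (map_zero _)
           map_add' := fun y z => Subtype.ext (map_add _ _ _) } : U →+ U).toIntLinearMap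
      map_one' := by
        ext y
        change P ((1 : I) : G) y = y
        rw [Subgroup.coe_one, map_one]
        rfl
      map_mul' := fun σ τ => by
        ext y
        change P ((σ * τ : I) : G) y = P σ (P τ y)
        rw [Subgroup.coe_mul, map_mul]
        rfl }
  have hP' : ∀ (σ : I) (y : U), ((P' σ y : U) : V) = P σ y := fun _ _ => rfl
  have hsq : ∀ σ : I, (P' σ - 1) * (P' σ - 1) = 0 := by
    intro σ
    ext y
    have e : ((((P' σ - 1) * (P' σ - 1)) y : U) : V) =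
      P σ (P σ y - y) - (P σ y - y) := rfl
    rw [e, map_sub]
    exact h2 σ σ.2 y y.2
  have h3 := kol3 P' hsq
  -- the third commutator
  have hk : ∀ (σ τ υ : I) (y : U),
      2 • ((P' σ - 1) ((P' τ - 1) ((P' υ - 1) y))) = 0 := by
    intro σ τ υ y
    have h4 := congrArg (fun f : Module.End ℤ U => f y) (h3 σ τ υ)
    have e : (2 * ((P' σ - 1) * (P' τ - 1) * (P' υ - 1)) : Module.End ℤ U) y =
      2 • ((P' σ - 1) ((P' τ - 1) ((P' υ - 1) y))) := by
      rw [two_mul, two_nsmul]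
      rfl
    rw [← e]
    exact h4
  have hC : ∀ y : U, (∀ σ : I, (P' σ - 1) y = 0) → E • y = 0 := by
    intro y hy
    apply Subtype.ext
    change E • (y : V) = 0
    refine hCAR y y.2 fun σ hσ => ?_
    have h4 := congrArg (fun u : U => (u : V)) (hy ⟨σ, hσ⟩)
    have e : (((P' ⟨σ, hσ⟩ - 1) y : U) : V) = P σ y - y := rfl
    change (((P' ⟨σ, hσ⟩ - 1) y : U) : V) = 0 at h4
    rw [e, sub_eq_zero] at h4
    exact h4
  have s1 : ∀ (τ υ : I) (y : U), E • 2 • ((P' τ - 1) ((P' υ - 1) y)) = 0 := by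
    intro τ υ y
    refine hC _ fun σ => ?_
    rw [map_nsmul]
    exact hk σ τ υ y
  have s2 : ∀ (υ : I) (y : U), E • E • 2 • ((P' υ - 1) y) = 0 := by
    intro υ y
    refine hC _ fun σ => ?_
    rw [map_nsmul, map_nsmul]
    exact s1 σ υ y
  have s3 : ∀ (y : U), E • E • E • 2 • y = 0 := by
    intro y
    refine hC _ fun σ => ?_
    rw [map_nsmul, map_nsmul, map_nsmul]
    exact s2 σ y
  have s4 := congrArg (fun u : U => (u : V)) (s3 ⟨x, hx⟩)
  have e : (((E • E • E • 2 • (⟨x, hx⟩ : U)) : U) : V) = E • E • E • 2 • x := rfl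
  change (((E • E • E • 2 • (⟨x, hx⟩ : U)) : U) : V) = 0 at s4
  rw [e] at s4
  rw [← s4, smul_smul, smul_smul, smul_smul]
  congr 1
  ring

end Grp

section

variable {G V : Type*} [Group G] [AddCommGroup V]

theorem sq_of_T {P X : G →* Module.End ℤ V} {T : G → Module.End ℤ V} (CH : CHData P X T) {σ : G}
    (hX : X σ = 1) {y : V} (hy : T σ y = (2 : ℤ) • y) :
    P σ (P σ y) - P σ y - (P σ y - y) = 0 := by
  have e1 := CH.T_eq σ
  rw [hX, one_mul] at e1
  have e2 : T σ y = P σ y + P σ⁻¹ y := by rw [e1]; rfl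
  rw [e2] at hy
  have e5 := congrArg (fun z => P σ z) hy
  simp only [map_add, map_zsmul, two_zsmul] at e5
  have e6 : P σ (P σ⁻¹ y) = y := by
    have e7 : P σ (P σ⁻¹ y) = (P σ * P σ⁻¹) y := rfl
    rw [e7, ← map_mul, mul_inv_cancel, map_one]
    rfl
  rw [e6] at e5
  have e9 : P σ (P σ y) - P σ y - (P σ y - y) = (P σ (P σ y) + y) - (P σ y + P σ y) := by abel
  rw [e9, e5, sub_self]

theorem T_P {P X : G →* Module.End ℤ V} {T : G → Module.End ℤ V} (CH : CHData P X T) (σ τ : G)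
    (y : V) : T τ (P σ y) = P σ (T τ y) := by
  have e1 : T τ (P σ y) = (T τ * P σ) y := rfl
  rw [e1, CH.T_comm τ σ]
  rfl

variable {V' : Type*} [AddCommGroup V']

/-- Kolchin's argument on a quotient -/
theorem kolchin_map {P X : G →* Module.End ℤ V} {T : G → Module.End ℤ V} (CH : CHData P X T)
    (P' : G →* Module.End ℤ V') (r : V →+ V') (hr : ∀ σ y, P' σ (r y) = r (P σ y))
    (I : Subgroup G) (hX : ∀ σ ∈ I, X σ = 1) (Gd : AddSubgroup V')
    (hGd : ∀ σ, ∀ y ∈ Gd, P' σ y ∈ Gd) {E : ℕ}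
    (hCAR : ∀ x ∈ Gd, (∀ σ ∈ I, P' σ x = x) → E • x = 0) {x : V}
    (hx : ∀ σ ∈ I, T σ x = (2 : ℤ) • x) (hxG : r x ∈ Gd) :
    (2 * E * E * E) • r x = 0 := by
  let U₀ : AddSubgroup V :=
    { carrier := {y | ∀ σ ∈ I, T σ y = (2 : ℤ) • y}
      zero_mem' := fun σ _ => by rw [map_zero, smul_zero]
      add_mem' := fun {a b} ha hb σ hσ => by
        rw [map_add, smul_add, ha σ hσ, hb σ hσ]
      neg_mem' := fun {a} ha σ hσ => by
        rw [map_neg, smul_neg, ha σ hσ] }
  have hU₀ : ∀ σ, ∀ y ∈ U₀, P σ y ∈ U₀ := by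
    intro σ y hy τ hτ
    rw [T_P CH, hy τ hτ, map_zsmul]
  refine kolchin P' I (U₀.map r ⊓ Gd) ?_ ?_ ?_ ⟨⟨x, hx, rfl⟩, hxG⟩
  · rintro σ y ⟨⟨y₀, hy₀, rfl⟩, hy2⟩
    exact ⟨⟨P σ y₀, hU₀ σ y₀ hy₀, (hr σ y₀).symm⟩, hGd σ _ hy2⟩
  · rintro σ hσ y ⟨⟨y₀, hy₀, rfl⟩, -⟩
    have e0 : P' σ (P' σ (r y₀)) - P' σ (r y₀) - (P' σ (r y₀) - r y₀) =
        r (P σ (P σ y₀) - P σ y₀ - (P σ y₀ - y₀)) := by
      rw [hr, hr, r.map_sub, r.map_sub, r.map_sub]
    rw [e0, sq_of_T CH (hX σ hσ) (hy₀ σ hσ), map_zero]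
  · rintro y ⟨-, hy2⟩ hy3
    exact hCAR y hy2 hy3

end

section

variable {N : ℕ} [NeZero N] {S : Finset ℕ} {p : ℕ}

/-- **The contradiction from (CAR)**, for unipotent inertia. -/
theorem false_of_car' (hp : p.Prime) (hpS : p ∈ S) (hNS : ∀ q : ℕ, q.Prime → q ∣ N → q ∈ S)
    (hKL : ∀ l : ℕ, l.Prime → ¬ l ∣ N → l ≠ p → ∀ B : ValuationSubring Qb,
      B.LiesOverPrime l → ∀ n, KLProp N (p ^ n) B)
    {N' : ℕ} [NeZero N'] (hNN' : N ∣ N') {I : Subgroup GQ}
    {O : Type} [CommRing O] [IsDomain O] [IsDiscreteValuationRing O] [Finite (ResidueField O)]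
    [CharZero O] (hpO : (p : O) ∈ maximalIdeal O)
    {π : CuspForm.heckeAlgebra N 2 (↑S : Set ℕ) →+* O} {v : LatM N (↑S : Set ℕ) →+ O}
    (hv : v ≠ 0) (hvT : ∀ (f : CuspForm.heckeAlgebra N 2 (↑S : Set ℕ)) x, v (f • x) = π f * v x)
    {c : ℕ} {t : GQ → O}
    (ht : ∀ σ, ∀ f ∈ algP (TxS N S p) (TtS N S), ∀ n m, n + c ≤ m →
        f.1 m = trS (rhoT N hp.pos m) (chiT N hp.pos m) σ →
        t σ - π f.2 ∈ Ideal.span {(p : O) ^ n})
    (hIt : ∀ σ ∈ I, t σ = 2) (hIχ : ∀ σ ∈ I, ∀ m, chiT N hp.pos m σ = 1)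
    {E : ℕ} (hE : E ≠ 0) (Gd : ∀ m, Subgroup (XG N' (p ^ m)))
    (hGdgal : ∀ m σ, ∀ χ ∈ Gd m, galX N' (pow_pos hp.pos m) σ χ ∈ Gd m)
    (hGdv : ∀ m (ψ : Multiplicative O →* ℂˣ) (hψ : ψ ^ (p ^ m) = 1),
      resX hNN' (p ^ m) ⟨vChar v ψ, vChar_mem v hψ⟩ ∈ Gd m)
    (hCAR : ∀ m, ∀ χ ∈ Gd m,
      (∀ σ ∈ I, galX N' (pow_pos hp.pos m) σ χ = χ) → χ ^ E = 1) :
    False := by
  obtain ⟨d, hd0, hd⟩ := exists_pow_res (N' := N') hNN'
  obtain ⟨x₀, hx₀⟩ : ∃ x, v x ≠ 0 := by
    by_contra hcon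
    push Not at hcon
    exact hv (AddMonoidHom.ext hcon)
  -- the main congruence
  have hmain : ∀ n : ℕ, ((2 * E * E * E * d : ℕ) : O) * v x₀ ∈ Ideal.span {(p : O) ^ n} := by
    intro n
    have hnm : p ^ n ∣ p ^ (n + c) := pow_dvd_pow _ (by omega)
    generalize hm : n + c = m at hnm
    choose f hf hfm using fun g => trS_mem (galTower (N := N) hp hpS hNS hKL) m g
    have h1 : ∀ g, t g - π (f g).2 ∈ Ideal.span {((p ^ n : ℕ) : O)} := fun g => by
      rw [Nat.cast_pow]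
      exact ht g (f g) (hf g) n m hm.le (hfm g)
    have CH := chData hp hpS hNS hKL m hf hfm
    have hfin : Finite (O ⧸ Ideal.span {((p ^ n : ℕ) : O)}) :=
      finite_quotient_of_mem (Nat.cast_ne_zero.mpr (pow_ne_zero _ hp.ne_zero))
    have hgoal : ((2 * E * E * E * d : ℕ) : O) * v x₀ ∈ Ideal.span {((p ^ n : ℕ) : O)} := by
      refine mem_span_of_forall_char fun ψ hψ => ?_
      have hψm : ψ ^ (p ^ m) = 1 := char_pow_dvd hnm hψ
      -- the group
      have hxU₀ : ∀ σ ∈ I, (f σ).1 m (Additive.ofMul ⟨vChar v ψ, vChar_mem v hψm⟩) =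
          (2 : ℤ) • (Additive.ofMul (⟨vChar v ψ, vChar_mem v hψm⟩ : XG N (p ^ m))) := by
        intro σ hσ
        have h2 := act_char hvT (hf σ) (y := 2) (k := p ^ n) (by
          rw [← hIt σ hσ]
          exact h1 σ) hψ hψm
        refine h2.trans ?_
        apply Additive.toMul.injective
        apply Subtype.ext
        refine MonoidHom.ext fun γ => ?_
        change ψ (Multiplicative.ofAdd (2 * (v (Multiplicative.toAdd (perM N S γ))))) =
          (ψ (Multiplicative.ofAdd (v (Multiplicative.toAdd (perM N S γ))))) ^ (2 : ℤ)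
        rw [two_mul, ofAdd_add, map_mul, zpow_two]
      have h3 := kolchin_map CH (rhoT N' hp.pos m) (MonoidHom.toAdditive (resX hNN' (p ^ m)))
        (fun σ y => galX_res hNN' (pow_pos hp.pos m) σ (Additive.toMul y)) I
        (fun σ hσ => hIχ σ hσ m) (Subgroup.toAddSubgroup (Gd m))
        (fun σ y hy => hGdgal m σ _ hy)
        (fun y hy hy2 => hCAR m (Additive.toMul y) hy fun σ hσ => hy2 σ hσ) hxU₀
        (hGdv m ψ hψm)
      have h4 : resX hNN' (p ^ m) ((⟨vChar v ψ, vChar_mem v hψm⟩ : XG N (p ^ m)) ^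
          (2 * E * E * E)) = 1 := by
        rw [map_pow]
        exact h3
      have h7 := hd _ (congrArg Subtype.val h4)
      obtain ⟨γ, hγ⟩ := perM_surjective (N := N) (S := S) (Multiplicative.ofAdd x₀)
      have h8 := DFunLike.congr_fun h7 γ
      have e1 : (ψ (Multiplicative.ofAdd ((v (Multiplicative.toAdd (perM N S γ)))))) ^
          (2 * E * E * E * d) = 1 := by
        rw [pow_mul]
        exact h8
      rw [hγ, ← map_pow] at e1
      rw [← e1]
      congr 1
      change _ = Multiplicative.ofAdd ((2 * E * E * E * d) • (v x₀))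
      rw [nsmul_eq_mul]
    rwa [Nat.cast_pow] at hgoal
  have h0 := eq_zero_of_forall_pow hpO hmain
  have h2 : ((2 * E * E * E * d : ℕ) : O) ≠ 0 :=
    Nat.cast_ne_zero.mpr (mul_ne_zero (mul_ne_zero (mul_ne_zero (mul_ne_zero two_ne_zero hE) hE)
      hE) hd0)
  rcases mul_eq_zero.mp h0 with h3 | h3
  · exact h2 h3
  · exact hx₀ h3

end

end Fermat.Agent.SF
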